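import Mathlib

/-!
# S14 / Thaine block — relative norm of a Galois-invariant ideal (helper102)

`S/R` Dedekind domains with Galois group `G`.  `T` a finite set of primes of `R`, each with a
`G`-invariant prime `𝔔 𝔮` above it of relative norm `𝔮` ("totally ramified"), every other
prime of `S` unramified.  Then for a `G`-invariant nonzero ideal `I` of `S`:
`relNorm I = J ^ [S:R] * ∏_{𝔮 ∈ T} 𝔮 ^ r 𝔮`, with `r 𝔮` the exact order of `I` at `𝔔 𝔮`.
-/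

set_option autoImplicit false

open scoped Pointwise

namespace Fermat.Agent.S14.Thaine102

open Ideal

section

variable {R S G : Type*} [CommRing R] [IsDedekindDomain R] [CommRing S] [IsDedekindDomain S]
  [Algebra R S] [Module.Finite R S] [Module.IsTorsionFree R S]
  [Group G] [Finite G] [MulSemiringAction G S] [IsGaloisGroup G R S]

omit [IsDedekindDomain R] [IsDedekindDomain S] [Module.Finite R S] [Module.IsTorsionFree R S]
  [Finite G] in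
theorem smul_map_algebraMap (g : G) (𝔭 : Ideal R) :
    g • Ideal.map (algebraMap R S) 𝔭 = Ideal.map (algebraMap R S) 𝔭 := by
  have : SMulCommClass G R S := IsGaloisGroup.commutes
  rw [Ideal.pointwise_smul_def, Ideal.map_map]
  congr 1
  ext x
  simp only [RingHom.coe_comp, Function.comp_apply, MulSemiringAction.toRingHom_apply]
  rw [Algebra.algebraMap_eq_smul_one, smul_comm, smul_one]

omit [Finite G] [IsDedekindDomain R] [Algebra R S] [Module.Finite R S]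
  [Module.IsTorsionFree R S] [IsGaloisGroup G R S] in
theorem cancel_invariant {A I I' : Ideal S} (hA : A ≠ ⊥) (hAI : I = A * I')
    (hAinv : ∀ g : G, g • A = A) (hinv : ∀ g : G, g • I = I) (g : G) : g • I' = I' := by
  have h := hinv g
  rw [hAI, smul_mul', hAinv g] at h
  exact mul_left_cancel₀ hA h

omit [IsDedekindDomain R] [Algebra R S] [Module.Finite R S]
  [Module.IsTorsionFree R S] [Group G] [Finite G] [MulSemiringAction G S]
  [IsGaloisGroup G R S] in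
theorem lt_of_eq_mul {A I I' : Ideal S} (hA : A ≠ ⊤) (hI' : I' ≠ ⊥) (hAI : I = A * I') :
    I < I' := by
  refine lt_of_le_of_ne (hAI ▸ (Ideal.mul_le_inf.trans inf_le_right)) ?_
  intro heq
  have h1 : A * I' = 1 * I' := by rw [one_mul, ← hAI, heq]
  have h2 := mul_right_cancel₀ hI' h1
  exact hA (by rwa [Ideal.one_eq_top] at h2)

omit [IsDedekindDomain R] [Algebra R S] [Module.Finite R S]
  [Module.IsTorsionFree R S] [Group G] [Finite G] [MulSemiringAction G S]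
  [IsGaloisGroup G R S] in
/-- Exact order is unchanged by multiplying with an ideal prime to `𝔔`. -/
theorem order_mul_of_not_dvd {𝔔 A I I' : Ideal S} [h𝔔 : 𝔔.IsPrime] (h𝔔0 : 𝔔 ≠ ⊥)
    (hA : ¬ 𝔔 ∣ A) (hAI : I = A * I') {r : ℕ}
    (h : I' ≤ 𝔔 ^ r ∧ ¬ I' ≤ 𝔔 ^ (r + 1)) : I ≤ 𝔔 ^ r ∧ ¬ I ≤ 𝔔 ^ (r + 1) := by
  obtain ⟨hle, hnle⟩ := h
  constructor
  · exact (hAI ▸ (Ideal.mul_le_inf.trans inf_le_right)).trans hle
  · intro h
    apply hnle
    rw [← Ideal.dvd_iff_le] at h ⊢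
    have hprime : Prime 𝔔 := Ideal.prime_of_isPrime h𝔔0 h𝔔
    exact hprime.pow_dvd_of_dvd_mul_left _ hA (hAI ▸ h)

/-- **Relative norm of an invariant ideal.** -/
theorem relNorm_of_invariant
    (T : Finset (Ideal R)) (𝔔 : Ideal R → Ideal S)
    (h1 : ∀ 𝔮 ∈ T, (𝔔 𝔮).IsPrime ∧ 𝔔 𝔮 ≠ ⊥ ∧ Ideal.relNorm R (𝔔 𝔮) = 𝔮 ∧
      ∀ g : G, g • 𝔔 𝔮 = 𝔔 𝔮)
    (h2 : ∀ P : Ideal S, P.IsPrime → P ≠ ⊥ → (∀ 𝔮 ∈ T, P ≠ 𝔔 𝔮) → P.ramificationIdx R = 1)
    (I : Ideal S) (hI : I ≠ ⊥) (hinv : ∀ g : G, g • I = I) :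
    ∃ (J : Ideal R) (r : Ideal R → ℕ), J ≠ ⊥ ∧
      Ideal.relNorm R I = J ^ Module.finrank R S * ∏ 𝔮 ∈ T, 𝔮 ^ r 𝔮 ∧
      ∀ 𝔮 ∈ T, I ≤ 𝔔 𝔮 ^ r 𝔮 ∧ ¬ I ≤ 𝔔 𝔮 ^ (r 𝔮 + 1) := by
  induction I using WellFoundedGT.induction with
  | ind I IH =>
  by_cases htop : I = ⊤
  · subst htop
    refine ⟨⊤, fun _ => 0, top_ne_bot, ?_, ?_⟩
    · rw [Ideal.relNorm_top]
      simp only [pow_zero, Finset.prod_const_one, mul_one]
      rw [← Ideal.one_eq_top, one_pow]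
    · intro 𝔮 h𝔮
      have := (h1 𝔮 h𝔮).1
      simp only [pow_zero, Ideal.one_eq_top, le_refl, zero_add, pow_one, top_le_iff, true_and]
      exact this.ne_top
  obtain ⟨P, hPmax, hIP⟩ := Ideal.exists_le_maximal I htop
  have hPprime : P.IsPrime := hPmax.isPrime
  have hP0 : P ≠ ⊥ := fun h => hI (le_bot_iff.mp (h ▸ hIP))
  have hPdvd : P ∣ I := Ideal.dvd_iff_le.mpr hIP
  by_cases hcase : ∃ 𝔮₀ ∈ T, P = 𝔔 𝔮₀
  · -- Case A : `P` is one of the totally ramified primes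
    obtain ⟨𝔮₀, h𝔮₀, hP𝔮₀⟩ := hcase
    obtain ⟨I', hI'⟩ := hPdvd
    have hI'0 : I' ≠ ⊥ := by
      rintro rfl
      exact hI (by simpa using hI')
    have hPinv : ∀ g : G, g • P = P := fun g => by rw [hP𝔮₀]; exact (h1 𝔮₀ h𝔮₀).2.2.2 g
    have hI'inv : ∀ g : G, g • I' = I' := cancel_invariant hP0 hI' hPinv hinv
    have hlt : I < I' := lt_of_eq_mul hPmax.ne_top hI'0 hI'
    obtain ⟨J, r, hJ, hrel, hmult⟩ := IH I' hlt hI'0 hI'inv
    refine ⟨J, Function.update r 𝔮₀ (r 𝔮₀ + 1), hJ, ?_, ?_⟩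
    · have hprod : ∏ 𝔮 ∈ T, 𝔮 ^ (Function.update r 𝔮₀ (r 𝔮₀ + 1)) 𝔮 =
          𝔮₀ * ∏ 𝔮 ∈ T, 𝔮 ^ r 𝔮 := by
        rw [← Finset.mul_prod_erase T _ h𝔮₀,
          ← Finset.mul_prod_erase T (fun 𝔮 => 𝔮 ^ r 𝔮) h𝔮₀, Function.update_self, pow_succ]
        have : ∏ 𝔮 ∈ T.erase 𝔮₀, 𝔮 ^ (Function.update r 𝔮₀ (r 𝔮₀ + 1)) 𝔮 =
            ∏ 𝔮 ∈ T.erase 𝔮₀, 𝔮 ^ r 𝔮 :=
          Finset.prod_congr rfl fun 𝔮 h𝔮 => by
            rw [Function.update_of_ne (Finset.ne_of_mem_erase h𝔮)]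
        rw [this]
        ring
      rw [hI', map_mul, hP𝔮₀, (h1 𝔮₀ h𝔮₀).2.2.1, hrel, hprod]
      ring
    · intro 𝔮 h𝔮
      by_cases hq : 𝔮 = 𝔮₀
      · subst hq
        rw [Function.update_self]
        obtain ⟨hle, hnle⟩ := hmult 𝔮 h𝔮
        rw [← hP𝔮₀] at hle hnle ⊢
        constructor
        · rw [hI', pow_succ']
          exact Ideal.mul_mono_right hle
        · intro h
          apply hnle
          rw [hI', ← Ideal.dvd_iff_le, pow_succ' _ (r 𝔮 + 1)] at h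
          exact Ideal.dvd_iff_le.mp ((mul_dvd_mul_iff_left hP0).mp h)
      · rw [Function.update_of_ne hq]
        have := (h1 𝔮 h𝔮).1
        refine order_mul_of_not_dvd (h1 𝔮 h𝔮).2.1 ?_ hI' (hmult 𝔮 h𝔮)
        intro hd
        have hle' : P ≤ 𝔔 𝔮 := Ideal.dvd_iff_le.mp hd
        have heq := hPmax.eq_of_le (h1 𝔮 h𝔮).1.ne_top hle'
        apply hq
        rw [← (h1 𝔮 h𝔮).2.2.1, ← (h1 𝔮₀ h𝔮₀).2.2.1, ← heq, hP𝔮₀]
  · -- Case B : `P` is unramified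
    simp only [not_exists, not_and] at hcase
    set 𝔭 : Ideal R := P.under R with h𝔭def
    have hPover : P.LiesOver 𝔭 := ⟨rfl⟩
    have h𝔭max : 𝔭.IsMaximal := Ideal.IsMaximal.under R P
    have h𝔭prime : 𝔭.IsPrime := h𝔭max.isPrime
    have h𝔭0 : 𝔭 ≠ ⊥ := by
      intro h
      exact hP0 (Ideal.eq_bot_of_comap_eq_bot h)
    set A : Ideal S := Ideal.map (algebraMap R S) 𝔭 with hAdef
    -- every prime over `𝔭` is a conjugate of `P`, is unramified, and divides `I`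
    have hconj : ∀ P' ∈ (𝔭.primesOver S).toFinset, ∃ g : G, g • P = P' := by
      intro P' hP'
      rw [Set.mem_toFinset] at hP'
      have := hP'.1
      have := hP'.2
      exact Ideal.exists_smul_eq_of_isGaloisGroup 𝔭 P P' G
    have hnot𝔔 : ∀ P' ∈ (𝔭.primesOver S).toFinset, ∀ 𝔮 ∈ T, P' ≠ 𝔔 𝔮 := by
      intro P' hP' 𝔮 h𝔮 heq
      obtain ⟨g, hg⟩ := hconj P' hP'
      apply hcase 𝔮 h𝔮
      have : g⁻¹ • P' = P := by rw [← hg, inv_smul_smul]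
      rw [← this, heq, (h1 𝔮 h𝔮).2.2.2]
    have hAprod : A = ∏ P' ∈ (𝔭.primesOver S).toFinset, P' := by
      rw [hAdef, Ideal.map_algebraMap_eq_finsetProd_pow h𝔭0]
      refine Finset.prod_congr rfl fun P' hP' => ?_
      have hP'' := Set.mem_toFinset.mp hP'
      have := hP''.1
      have := hP''.2
      rw [h2 P' hP''.1 (Ideal.ne_bot_of_liesOver_of_ne_bot h𝔭0 P') (hnot𝔔 P' hP'), pow_one]
    have hAdvd : A ∣ I := by
      rw [hAprod]
      refine Finset.prod_primes_dvd I ?_ ?_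
      · intro P' hP'
        have hP'' := Set.mem_toFinset.mp hP'
        have := hP''.2
        exact Ideal.prime_of_isPrime (Ideal.ne_bot_of_liesOver_of_ne_bot h𝔭0 P') hP''.1
      · intro P' hP'
        obtain ⟨g, rfl⟩ := hconj P' hP'
        rw [Ideal.dvd_iff_le, ← hinv g]
        exact Ideal.pointwise_smul_le_pointwise_smul_iff.mpr hIP
    have hA0 : A ≠ ⊥ := by
      rw [hAdef]
      exact Ideal.map_ne_bot_of_ne_bot h𝔭0
    have hAtop : A ≠ ⊤ := by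
      intro h
      have : A ≤ P := Ideal.map_le_iff_le_comap.mpr le_rfl
      rw [h, top_le_iff] at this
      exact hPmax.ne_top this
    have hAinv : ∀ g : G, g • A = A := fun g => smul_map_algebraMap g 𝔭
    have hAnot : ∀ 𝔮 ∈ T, ¬ 𝔔 𝔮 ∣ A := by
      intro 𝔮 h𝔮 hd
      have hpr := (h1 𝔮 h𝔮).1
      have hprime : Prime (𝔔 𝔮) := Ideal.prime_of_isPrime (h1 𝔮 h𝔮).2.1 hpr
      rw [hAprod] at hd
      obtain ⟨P', hP', hd'⟩ := (Prime.dvd_finsetProd_iff hprime _).mp hd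
      have hP'' := Set.mem_toFinset.mp hP'
      have hmax' : P'.IsMaximal := by
        have := hP''.1
        have := hP''.2
        exact Ideal.IsMaximal.of_liesOver_isMaximal P' 𝔭
      have heq := hmax'.eq_of_le hpr.ne_top (Ideal.dvd_iff_le.mp hd')
      exact hnot𝔔 P' hP' 𝔮 h𝔮 heq
    obtain ⟨I', hI'⟩ := hAdvd
    have hI'0 : I' ≠ ⊥ := by
      rintro rfl
      exact hI (by simpa using hI')
    have hI'inv : ∀ g : G, g • I' = I' := cancel_invariant hA0 hI' hAinv hinv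
    have hlt : I < I' := lt_of_eq_mul hAtop hI'0 hI'
    obtain ⟨J, r, hJ, hrel, hmult⟩ := IH I' hlt hI'0 hI'inv
    refine ⟨𝔭 * J, r, mul_ne_zero h𝔭0 hJ, ?_, ?_⟩
    · rw [hI', map_mul, hAdef, Ideal.relNorm_algebraMap, hrel, mul_pow]
      ring
    · intro 𝔮 h𝔮
      have := (h1 𝔮 h𝔮).1
      exact order_mul_of_not_dvd (h1 𝔮 h𝔮).2.1 (hAnot 𝔮 h𝔮) hI' (hmult 𝔮 h𝔮)

end

end Fermat.Agent.S14.Thaine102
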