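import Mathlib

/-!
# S14 / Thaine block — local index lemma (helper102)

`S` a Dedekind domain, `𝔔` a nonzero prime, `τ : S →+* S` acting trivially modulo `𝔔`,
`π` a uniformizer at `𝔔` with `τ π = π * γ`, `γ ≡ g mod 𝔔`.  If `x` has exact `𝔔`-order `r`
and `u * τ x = x`, then `u * g ^ r ≡ 1 mod 𝔔`.
-/

set_option autoImplicit false

namespace Fermat.Agent.S14.Thaine102

open Ideal

variable {S : Type*} [CommRing S] [IsDedekindDomain S]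

/-- An element of exact order `r` at `𝔔` can be written as `x * b = π ^ r * a` with
`a, b ∉ 𝔔`, where `π` is a uniformizer at `𝔔`. -/
theorem exists_mul_eq_pow_mul (𝔔 : Ideal S) [h𝔔p : 𝔔.IsPrime] (h𝔔 : 𝔔 ≠ ⊥)
    (π : S) (hπ : π ∈ 𝔔) (hπ2 : π ∉ 𝔔 ^ 2)
    (x : S) (r : ℕ) (hx : x ∈ 𝔔 ^ r) (hx' : x ∉ 𝔔 ^ (r + 1)) :
    ∃ a b : S, a ∉ 𝔔 ∧ b ∉ 𝔔 ∧ x * b = π ^ r * a := by
  have hprime : Prime 𝔔 := Ideal.prime_of_isPrime h𝔔 h𝔔p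
  -- `(π) = 𝔔 * 𝔟`
  obtain ⟨𝔟, h𝔟⟩ : 𝔔 ∣ span {π} := by
    rw [Ideal.dvd_iff_le, Ideal.span_singleton_le_iff_mem]; exact hπ
  have h𝔟' : ¬ 𝔟 ≤ 𝔔 := by
    intro hle
    apply hπ2
    have : span {π} ≤ 𝔔 ^ 2 := by
      rw [h𝔟, pow_two]
      exact Ideal.mul_mono_right hle
    exact this (Ideal.mem_span_singleton_self π)
  -- `(x) = 𝔔 ^ r * 𝔞`
  obtain ⟨𝔞, h𝔞⟩ : 𝔔 ^ r ∣ span {x} := by
    rw [Ideal.dvd_iff_le, Ideal.span_singleton_le_iff_mem]; exact hx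
  have h𝔞' : ¬ 𝔞 ≤ 𝔔 := by
    intro hle
    apply hx'
    have : span {x} ≤ 𝔔 ^ (r + 1) := by
      rw [h𝔞, pow_succ]
      exact Ideal.mul_mono_right hle
    exact this (Ideal.mem_span_singleton_self x)
  have h𝔟r : ¬ 𝔟 ^ r ≤ 𝔔 := fun hle => h𝔟' (h𝔔p.le_of_pow_le hle)
  obtain ⟨b, hb𝔟, hb𝔔⟩ := SetLike.not_le_iff_exists.mp h𝔟r
  have hxb : x * b ∈ span {π ^ r} * 𝔞 := by
    have h1 : x * b ∈ span {x} * 𝔟 ^ r :=
      Ideal.mul_mem_mul (Ideal.mem_span_singleton_self x) hb𝔟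
    have h2 : span {x} * 𝔟 ^ r = span {π ^ r} * 𝔞 := by
      rw [← Ideal.span_singleton_pow, h𝔟, h𝔞, mul_pow]
      ring
    rwa [h2] at h1
  obtain ⟨a, ha𝔞, hax⟩ := Ideal.mem_span_singleton_mul.mp hxb
  refine ⟨a, b, ?_, hb𝔔, hax.symm⟩
  intro ha𝔔
  -- then `x * b ∈ 𝔔 ^ (r+1)`
  have hxb' : span {x} * span {b} ≤ 𝔔 ^ (r + 1) := by
    rw [Ideal.span_singleton_mul_span_singleton, Ideal.span_singleton_le_iff_mem, ← hax,
      pow_succ]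
    refine Ideal.mul_mem_mul ?_ ha𝔔
    exact Ideal.pow_mem_pow hπ r
  rw [← Ideal.dvd_iff_le, h𝔞, pow_succ, mul_assoc] at hxb'
  have hne : 𝔔 ^ r ≠ 0 := pow_ne_zero _ h𝔔
  have hdvd : 𝔔 ∣ 𝔞 * span {b} := (mul_dvd_mul_iff_left hne).mp hxb'
  rcases hprime.dvd_or_dvd hdvd with h | h
  · exact h𝔞' (Ideal.dvd_iff_le.mp h)
  · rw [Ideal.dvd_iff_le, Ideal.span_singleton_le_iff_mem] at h
    exact hb𝔔 h

/-- **Local index lemma.** -/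
theorem local_index (𝔔 : Ideal S) [h𝔔p : 𝔔.IsPrime] (h𝔔 : 𝔔 ≠ ⊥)
    (τ : S →+* S) (hτ : ∀ a, τ a - a ∈ 𝔔)
    (π γ g : S) (hπ : π ∈ 𝔔) (hπ2 : π ∉ 𝔔 ^ 2) (hγ : τ π = π * γ) (hg : γ - g ∈ 𝔔)
    (x u : S) (r : ℕ) (hx : x ∈ 𝔔 ^ r) (hx' : x ∉ 𝔔 ^ (r + 1)) (hu : u * τ x = x) :
    u * g ^ r - 1 ∈ 𝔔 := by
  obtain ⟨a, b, ha, hb, hab⟩ := exists_mul_eq_pow_mul 𝔔 h𝔔 π hπ hπ2 x r hx hx'
  have hπ0 : π ≠ 0 := by
    rintro rfl
    exact hπ2 (Ideal.zero_mem _)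
  -- apply `τ` to `x * b = π ^ r * a`
  have h1 : τ x * τ b = π ^ r * γ ^ r * τ a := by
    have := congrArg τ hab
    rw [map_mul, map_mul, map_pow, hγ, mul_pow] at this
    exact this
  -- `a * τ b = u * γ ^ r * τ a * b`
  have h2 : π ^ r * (a * τ b) = π ^ r * (u * γ ^ r * τ a * b) := by
    calc π ^ r * (a * τ b) = (π ^ r * a) * τ b := by ring
      _ = x * b * τ b := by rw [hab]
      _ = (u * τ x) * b * τ b := by rw [hu]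
      _ = u * (τ x * τ b) * b := by ring
      _ = u * (π ^ r * γ ^ r * τ a) * b := by rw [h1]
      _ = π ^ r * (u * γ ^ r * τ a * b) := by ring
  have h3 : a * τ b = u * γ ^ r * τ a * b := mul_left_cancel₀ (pow_ne_zero r hπ0) h2
  -- reduce modulo `𝔔`
  have hγg : γ ^ r - g ^ r ∈ 𝔔 := by
    have : γ - g ∣ γ ^ r - g ^ r := sub_dvd_pow_sub_pow γ g r
    obtain ⟨c, hc⟩ := this
    rw [hc]
    exact Ideal.mul_mem_right _ _ hg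
  have h4 : (u * g ^ r - 1) * (a * b) ∈ 𝔔 := by
    have e : (u * g ^ r - 1) * (a * b) =
        (u * γ ^ r * τ a * b - a * τ b) - u * γ ^ r * b * (τ a - a) + a * (τ b - b)
          - u * a * b * (γ ^ r - g ^ r) := by ring
    rw [e, h3, sub_self, zero_sub]
    refine Ideal.sub_mem _ (Ideal.add_mem _ (neg_mem ?_) ?_) ?_
    · exact Ideal.mul_mem_left _ _ (hτ a)
    · exact Ideal.mul_mem_left _ _ (hτ b)
    · exact Ideal.mul_mem_left _ _ hγg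
  rcases h𝔔p.mem_or_mem h4 with h | h
  · exact h
  · rcases h𝔔p.mem_or_mem h with h | h
    · exact absurd h ha
    · exact absurd h hb

end Fermat.Agent.S14.Thaine102
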