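import Mathlib

/-!
# S14 / Thaine block — `N_{L/K}(x - ζ) = Φ_n(x)` (helper102)
-/

set_option autoImplicit false

open Polynomial

namespace Fermat.Agent.S14.Thaine102

section

variable {n : ℕ} [NeZero n] {K L : Type*} [Field K] [Field L] [Algebra K L]
  [IsCyclotomicExtension {n} K L]

/-- The norm of `x - ζ` is the value of the cyclotomic polynomial at `x`. -/
theorem norm_sub_primitiveRoot {ζ : L} (hζ : IsPrimitiveRoot ζ n)
    (hirr : Irreducible (cyclotomic n K)) (x : K) :
    Algebra.norm K (algebraMap K L x - ζ) = eval x (cyclotomic n K) := by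
  have := IsCyclotomicExtension.neZero' n K L
  let E := AlgebraicClosure L
  obtain ⟨z, hz⟩ := IsAlgClosed.exists_root _ (degree_cyclotomic_pos n E (NeZero.pos _)).ne.symm
  apply (algebraMap K E).injective
  have := IsCyclotomicExtension.finiteDimensional {n} K L
  have := IsCyclotomicExtension.isGalois {n} K L
  rw [Algebra.norm_eq_prod_embeddings]
  have Hprod : (Finset.univ.prod fun σ : L →ₐ[K] E => σ (algebraMap K L x - ζ)) =
      eval (algebraMap K E x) (cyclotomic' n E) := by
    rw [cyclotomic', eval_prod, ← @Finset.prod_attach E E, ← Finset.univ_eq_attach]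
    refine Fintype.prod_equiv (hζ.embeddingsEquivPrimitiveRoots E hirr) _ _ fun σ => ?_
    simp
  have : NeZero (n : E) := NeZero.of_faithfulSMul K _ n
  rw [Hprod, cyclotomic', ← cyclotomic_eq_prod_X_sub_primitiveRoots (isRoot_cyclotomic_iff.1 hz),
    ← map_cyclotomic n (algebraMap K E), eval_map_algebraMap, aeval_algebraMap_apply,
    coe_aeval_eq_eval]

end

/-- `Φ_q(x) = 1` if `x ^ q = x`, `x ≠ 1`. -/
theorem eval_cyclotomic_eq_one {K : Type*} [Field K] {q : ℕ} (hq : q.Prime) {x : K}
    (hx : x ^ q = x) (hx1 : x ≠ 1) : eval x (cyclotomic q K) = 1 := by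
  have h := congrArg (eval x) (cyclotomic_prime_mul_X_sub_one K q (hn := ⟨hq⟩))
  simp only [eval_mul, eval_sub, eval_X, eval_one, eval_pow, hx] at h
  have hne : x - 1 ≠ 0 := sub_ne_zero.mpr hx1
  exact mul_right_cancel₀ hne (by rw [h, one_mul])

end Fermat.Agent.S14.Thaine102
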