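import Mathlib

/-!
# S14 / Thaine block — `ζ_q - 1` is a uniformizer at totally ramified primes above `q` (helper102)
-/

set_option autoImplicit false

open Polynomial

namespace Fermat.Agent.S14.Thaine102

section

variable {S : Type*} [CommRing S]

/-- A `q`-th root of unity is `≡ 1` modulo a prime containing `q`. -/
theorem zeta_sub_one_mem {q : ℕ} [hq : Fact q.Prime] (𝔔 : Ideal S) [h𝔔 : 𝔔.IsPrime]
    (hq𝔔 : (q : S) ∈ 𝔔) {ζ : S} (hζ : ζ ^ q = 1) : ζ - 1 ∈ 𝔔 := by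
  have hchar : CharP (S ⧸ 𝔔) q := by
    rw [CharP.charP_iff_prime_eq_zero hq.out, ← map_natCast (Ideal.Quotient.mk 𝔔),
      Ideal.Quotient.eq_zero_iff_mem]
    exact hq𝔔
  rw [← Ideal.Quotient.eq_zero_iff_mem, map_sub, map_one]
  have h : (Ideal.Quotient.mk 𝔔 ζ - 1) ^ q = 0 := by
    rw [sub_pow_char, one_pow, ← map_pow, hζ, map_one, sub_self]
  exact pow_eq_zero_iff (hq.out.ne_zero) |>.mp h

variable [IsDomain S]

/-- `q = ∏ (1 - ζ')` over the primitive `q`-th roots of unity. -/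
theorem natCast_eq_prod_one_sub {q : ℕ} [hq : Fact q.Prime] {ζ : S} (hζ : IsPrimitiveRoot ζ q) :
    (q : S) = ∏ μ ∈ primitiveRoots q S, (1 - μ) := by
  have h := congrArg (eval 1) (cyclotomic_eq_prod_X_sub_primitiveRoots hζ)
  rw [eval_one_cyclotomic_prime, eval_prod] at h
  rw [h]
  refine Finset.prod_congr rfl fun μ _ => ?_
  simp

/-- If `ζ - 1 ∈ I` then `q ∈ I ^ (q - 1)`. -/
theorem natCast_mem_pow {q : ℕ} [hq : Fact q.Prime] {ζ : S} (hζ : IsPrimitiveRoot ζ q)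
    (I : Ideal S) (hI : ζ - 1 ∈ I) : (q : S) ∈ I ^ (q - 1) := by
  have : NeZero q := ⟨hq.out.ne_zero⟩
  rw [natCast_eq_prod_one_sub hζ]
  have hcard : (primitiveRoots q S).card = q - 1 := by
    rw [hζ.card_primitiveRoots, Nat.totient_prime hq.out]
  rw [← hcard, ← Finset.prod_const]
  refine Ideal.prod_mem_prod fun μ hμ => ?_
  have hμ' : IsPrimitiveRoot μ q := (mem_primitiveRoots (NeZero.pos q)).mp hμ
  obtain ⟨j, _, rfl⟩ := hζ.eq_pow_of_pow_eq_one hμ'.pow_eq_one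
  have hdvd : ζ - 1 ∣ ζ ^ j - 1 := by
    simpa using sub_dvd_pow_sub_pow ζ 1 j
  obtain ⟨c, hc⟩ := hdvd
  have : 1 - ζ ^ j = (ζ - 1) * (-c) := by rw [mul_neg, ← hc]; ring
  rw [this]
  exact Ideal.mul_mem_right _ _ hI

end

section Dedekind

variable {S : Type*} [CommRing S] [IsDedekindDomain S] [Algebra ℤ S]

/-- At a prime `𝔔` above `q` of ramification index `< 2 (q - 1)` (e.g. `q - 1`), the element
`ζ_q - 1` has order exactly one. -/
theorem zeta_sub_one_notMem_sq {q : ℕ} [hq : Fact q.Prime] {ζ : S} (hζ : IsPrimitiveRoot ζ q)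
    (𝔔 : Ideal S) [h𝔔 : 𝔔.IsPrime] [h𝔔q : 𝔔.LiesOver (Ideal.span {(q : ℤ)})]
    (hq0 : (q : S) ≠ 0) (he : 𝔔.ramificationIdx ℤ < 2 * (q - 1)) :
    ζ - 1 ∉ 𝔔 ^ 2 := by
  intro hmem
  have h1 : (q : S) ∈ (𝔔 ^ 2) ^ (q - 1) := natCast_mem_pow hζ _ hmem
  rw [← pow_mul] at h1
  have hmap : Ideal.map (algebraMap ℤ S) (Ideal.span {(q : ℤ)}) = Ideal.span {(q : S)} := by
    rw [Ideal.map_span, Set.image_singleton]
    simp
  have hmap0 : Ideal.map (algebraMap ℤ S) (Ideal.span {(q : ℤ)}) ≠ ⊥ := by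
    rw [hmap, Ne, Ideal.span_singleton_eq_bot]
    exact hq0
  have h𝔔0 : 𝔔 ≠ ⊥ := by
    rintro rfl
    apply hmap0
    rw [hmap, Ideal.span_singleton_eq_bot]
    have := h1
    rw [Ideal.bot_pow (by have := hq.out.one_lt; omega)] at this
    exact this
  have hmult := Ideal.IsDedekindDomain.ramificationIdx_eq_multiplicity (Ideal.span {(q : ℤ)}) 𝔔 hmap0
  have hfin : FiniteMultiplicity 𝔔 (Ideal.map (algebraMap ℤ S) (Ideal.span {(q : ℤ)})) :=
    FiniteMultiplicity.of_prime_left (Ideal.prime_of_isPrime h𝔔0 h𝔔) hmap0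
  have hnd := hfin.not_pow_dvd_of_multiplicity_lt (m := 2 * (q - 1)) (by rw [← hmult]; exact he)
  apply hnd
  rw [Ideal.dvd_iff_le, hmap, Ideal.span_singleton_le_iff_mem]
  exact h1

end Dedekind

end Fermat.Agent.S14.Thaine102
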