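import Fermat.Agent.S14.Thaine102.Ramification
import Fermat.Agent.S14.Thaine102.NormCyclo
import Fermat.Agent.S14.Thaine102.LocalIndex
import Fermat.Agent.S14.Thaine102.InvIdeal
import Fermat.Agent.S14.Thaine102.Uniformizer

/-!
# S14 / Thaine block — the core relation (helper102)

`K = ℚ(ζ_p)`, `q ≡ 1 mod p` prime, `L = K(ζ_q)`.  For `δ = ∏_b (ζ_p^b - 1)^(e b)` there are a
primitive root `g₀` mod `q`, an ideal `J` of `𝓞 K` and exponents `r 𝔮` (for the primes `𝔮 ∣ q`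
of `K`) such that `J ^ (q-1) * ∏_𝔮 𝔮 ^ r 𝔮` is principal and `δ * g₀ ^ r 𝔮 ≡ 1 mod 𝔮`.
-/

set_option autoImplicit false

open NumberField Polynomial
open scoped Pointwise

namespace Fermat.Agent.S14.Thaine102

section Core

variable (p q : ℕ) [hp : Fact p.Prime] [hq : Fact q.Prime]
variable (K L : Type) [Field K] [NumberField K] [Field L] [NumberField L] [Algebra K L]
variable [IsCyclotomicExtension {p} ℚ K] [IsCyclotomicExtension {q} K L]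

/-- The cyclotomic unit `η = ∏_b (ζ_p^b - ζ_q)^(e b)` of `L`. -/
noncomputable def eta (ζp : 𝓞 K) (ζq : 𝓞 L) (e : ℕ → ℕ) : 𝓞 L :=
  ∏ b ∈ Finset.Icc 1 (p - 1), (algebraMap (𝓞 K) (𝓞 L) (ζp ^ b) - ζq) ^ (e b)

/-- The cyclotomic number `δ = ∏_b (ζ_p^b - 1)^(e b)` of `K`. -/
noncomputable def del (ζp : 𝓞 K) (e : ℕ → ℕ) : 𝓞 K :=
  ∏ b ∈ Finset.Icc 1 (p - 1), (ζp ^ b - 1) ^ (e b)

omit [NumberField K] [NumberField L] [IsCyclotomicExtension {p} ℚ K]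
  [IsCyclotomicExtension {q} K L] hp hq in
theorem coe_eta (ζp : 𝓞 K) (ζq : 𝓞 L) (e : ℕ → ℕ) :
    ((eta p K L ζp ζq e : 𝓞 L) : L) =
      ∏ b ∈ Finset.Icc 1 (p - 1), (algebraMap K L ((ζp : K) ^ b) - (ζq : L)) ^ (e b) := by
  rw [eta, RingOfIntegers.coe_eq_algebraMap, map_prod]
  refine Finset.prod_congr rfl fun b _ => ?_
  simp only [map_pow, map_sub]
  rfl

theorem norm_eta (hpq : p ≠ q) (hq1 : (q : ZMod p) = 1) {ζp : 𝓞 K}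
    (hζp : IsPrimitiveRoot ζp p) {ζq : 𝓞 L} (hζq : IsPrimitiveRoot ζq q) (e : ℕ → ℕ) :
    Algebra.norm K ((eta p K L ζp ζq e : 𝓞 L) : L) = 1 := by
  have : NeZero q := ⟨hq.out.ne_zero⟩
  have hirr := irreducible_cyclotomic p q K L hpq
  have hζq' : IsPrimitiveRoot (ζq : L) q :=
    hζq.map_of_injective (RingOfIntegers.coe_injective)
  have hζp' : IsPrimitiveRoot (ζp : K) p :=
    hζp.map_of_injective (RingOfIntegers.coe_injective)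
  have hqmod : q % p = 1 := by
    have h := congrArg ZMod.val hq1
    rw [ZMod.val_natCast, ZMod.val_one'' (hp.out.ne_one)] at h
    exact h
  rw [coe_eta, map_prod]
  refine Finset.prod_eq_one fun b hb => ?_
  rw [Finset.mem_Icc] at hb
  rw [map_pow, norm_sub_primitiveRoot hζq' hirr, eval_cyclotomic_eq_one hq.out, one_pow]
  · -- `(ζ^b)^q = ζ^b`
    rw [← pow_mul]
    conv_lhs => rw [← Nat.div_add_mod q p, hqmod, mul_add, mul_one, pow_add, ← mul_assoc,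
      mul_comm b p, mul_assoc, pow_mul, hζp'.pow_eq_one, one_pow, one_mul]
  · exact hζp'.pow_ne_one_of_pos_of_lt (by omega) (by have := hp.out.one_lt; omega)

omit [IsCyclotomicExtension {p} ℚ K] in
theorem galRestrict_eq_smul (τ : L ≃ₐ[K] L) (β : 𝓞 L) :
    galRestrict (𝓞 K) K L (𝓞 L) τ β = τ • β := by
  apply RingOfIntegers.ext
  exact algebraMap_galRestrict_apply (𝓞 K) τ β

/-- Hilbert 90 for the cyclotomic unit `η`, and Galois-invariance of the ideal `(β)`. -/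
theorem exists_beta (hpq : p ≠ q) (hq1 : (q : ZMod p) = 1) {ζp : 𝓞 K}
    (hζp : IsPrimitiveRoot ζp p) {ζq : 𝓞 L} (hζq : IsPrimitiveRoot ζq q) (e : ℕ → ℕ)
    (τ : L ≃ₐ[K] L) (hτ : ∀ x, x ∈ Subgroup.zpowers τ) :
    ∃ β : 𝓞 L, β ≠ 0 ∧ eta p K L ζp ζq e * τ • β = β ∧
      ∀ g : L ≃ₐ[K] L, g • Ideal.span {β} = Ideal.span {β} := by
  have : IsGalois K L := IsCyclotomicExtension.isGalois {q} K L
  have : IsCyclic (L ≃ₐ[K] L) := ⟨τ, fun x => Subgroup.mem_zpowers_iff.mp (hτ x)⟩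
  have hnorm := norm_eta p q K L hpq hq1 hζp hζq e
  obtain ⟨β, hβ0, hβ⟩ := groupCohomology.exists_mul_galRestrict_of_norm_eq_one
    (A := 𝓞 K) (B := 𝓞 L) (K := K) (L := L) hτ (η := eta p K L ζp ζq e) hnorm
  rw [galRestrict_eq_smul] at hβ
  refine ⟨β, hβ0, hβ, ?_⟩
  have hunit : IsUnit (eta p K L ζp ζq e) := by
    rw [← RingOfIntegers.isUnit_norm_of_isGalois K]
    have : RingOfIntegers.norm K (eta p K L ζp ζq e) = 1 := by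
      apply RingOfIntegers.ext
      rw [RingOfIntegers.coe_norm, hnorm]
      rfl
    rw [this]
    exact isUnit_one
  have hτI : τ • Ideal.span {β} = Ideal.span {β} := by
    rw [Ideal.smul_closure, Set.smul_set_singleton]
    conv_rhs => rw [← hβ]
    exact (Ideal.span_singleton_mul_left_unit hunit _).symm
  intro g
  have hle : Subgroup.zpowers τ ≤ MulAction.stabilizer (L ≃ₐ[K] L) (Ideal.span {β}) := by
    rw [Subgroup.zpowers_le]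
    exact hτI
  exact hle (hτ g)

omit [NumberField K] [NumberField L] [IsCyclotomicExtension {p} ℚ K]
  [IsCyclotomicExtension {q} K L] hp in
/-- `η ≡ δ` modulo a prime containing `ζ_q - 1`. -/
theorem eta_sub_del_mem (ζp : 𝓞 K) (ζq : 𝓞 L) (e : ℕ → ℕ) (P : Ideal (𝓞 L))
    (hP : ζq - 1 ∈ P) :
    eta p K L ζp ζq e - algebraMap (𝓞 K) (𝓞 L) (del p K ζp e) ∈ P := by
  rw [← Ideal.Quotient.eq, eta, del, map_prod, map_prod, map_prod]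
  refine Finset.prod_congr rfl fun b _ => ?_
  have h1 : Ideal.Quotient.mk P ζq = 1 := by
    rw [← map_one (Ideal.Quotient.mk P), Ideal.Quotient.eq]
    exact hP
  simp only [map_pow, map_sub, map_one, h1]

include L in
/-- **Thaine's core relation.** -/
theorem thaine_core (hpq : p ≠ q) (hq1 : (q : ZMod p) = 1) {ζp : 𝓞 K}
    (hζp : IsPrimitiveRoot ζp p) (e : ℕ → ℕ)
    (T : Finset (Ideal (𝓞 K)))
    (hT : ∀ 𝔮 : Ideal (𝓞 K), 𝔮 ∈ T ↔ 𝔮.IsPrime ∧ (q : 𝓞 K) ∈ 𝔮) :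
    ∃ (g₀ : ℕ) (J : Ideal (𝓞 K)) (r : Ideal (𝓞 K) → ℕ) (a : 𝓞 K),
      orderOf (g₀ : ZMod q) = q - 1 ∧ J ≠ ⊥ ∧ a ≠ 0 ∧
      Ideal.span {a} = J ^ (q - 1) * ∏ 𝔮 ∈ T, 𝔮 ^ r 𝔮 ∧
      ∀ 𝔮 ∈ T, del p K ζp e * (g₀ : 𝓞 K) ^ r 𝔮 - 1 ∈ 𝔮 := by
  have : NeZero q := ⟨hq.out.ne_zero⟩
  have : IsGalois K L := IsCyclotomicExtension.isGalois {q} K L
  obtain ⟨τ, g₀, hτ, hτζ, hg₀⟩ := exists_generator p q K L hpq
  have hζqL := IsCyclotomicExtension.zeta_spec q K L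
  set ζq : 𝓞 L := hζqL.toInteger with hζq_def
  have hζq : IsPrimitiveRoot ζq q := hζqL.toInteger_isPrimitiveRoot
  obtain ⟨β, hβ0, hβ, hβinv⟩ := exists_beta p q K L hpq hq1 hζp hζq e τ hτ
  have hqK0 : (q : 𝓞 K) ≠ 0 := Nat.cast_ne_zero.mpr hq.out.ne_zero
  have hqL0 : (q : 𝓞 L) ≠ 0 := Nat.cast_ne_zero.mpr hq.out.ne_zero
  -- the primes of `L` above the primes in `T`
  have hex : ∀ 𝔮 ∈ T, ∃ P : Ideal (𝓞 L), P.IsPrime ∧ P.LiesOver 𝔮 := by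
    intro 𝔮 h𝔮
    have hpr := ((hT 𝔮).mp h𝔮).1
    have h0 : 𝔮 ≠ ⊥ := by
      rintro rfl
      exact hqK0 ((Ideal.mem_bot).mp ((hT ⊥).mp h𝔮).2)
    have hmax : 𝔮.IsMaximal := hpr.isMaximal h0
    obtain ⟨P, hP, hPo⟩ := Ideal.exists_maximal_ideal_liesOver_of_isIntegral 𝔮 (S := 𝓞 L)
    exact ⟨P, hP.isPrime, hPo⟩
  classical
  let 𝔔 : Ideal (𝓞 K) → Ideal (𝓞 L) := fun 𝔮 => if h : 𝔮 ∈ T then (hex 𝔮 h).choose else ⊥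
  have h𝔔prime : ∀ 𝔮 ∈ T, (𝔔 𝔮).IsPrime := by
    intro 𝔮 h𝔮
    simp only [𝔔, dif_pos h𝔮]
    exact (hex 𝔮 h𝔮).choose_spec.1
  have h𝔔over : ∀ 𝔮 ∈ T, (𝔔 𝔮).LiesOver 𝔮 := by
    intro 𝔮 h𝔮
    simp only [𝔔, dif_pos h𝔮]
    exact (hex 𝔮 h𝔮).choose_spec.2
  have h𝔔q : ∀ 𝔮 ∈ T, (q : 𝓞 L) ∈ 𝔔 𝔮 := by
    intro 𝔮 h𝔮
    have hmem : (q : 𝓞 K) ∈ Ideal.under (𝓞 K) (𝔔 𝔮) := by
      rw [← (h𝔔over 𝔮 h𝔮).over]
      exact ((hT 𝔮).mp h𝔮).2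
    rw [Ideal.under_def, Ideal.mem_comap, map_natCast] at hmem
    exact hmem
  have h𝔔0 : ∀ 𝔮 ∈ T, 𝔔 𝔮 ≠ ⊥ := by
    intro 𝔮 h𝔮 h
    have := h𝔔q 𝔮 h𝔮
    rw [h, Ideal.mem_bot] at this
    exact hqL0 this
  have h1 : ∀ 𝔮 ∈ T, (𝔔 𝔮).IsPrime ∧ 𝔔 𝔮 ≠ ⊥ ∧ Ideal.relNorm (𝓞 K) (𝔔 𝔮) = 𝔮 ∧
      ∀ g : L ≃ₐ[K] L, g • 𝔔 𝔮 = 𝔔 𝔮 := by
    intro 𝔮 h𝔮
    have := h𝔔prime 𝔮 h𝔮
    refine ⟨h𝔔prime 𝔮 h𝔮, h𝔔0 𝔮 h𝔮, ?_, ?_⟩
    · rw [relNorm_eq_of_mem p q K L hpq hq1 (𝔔 𝔮) (h𝔔q 𝔮 h𝔮), ← (h𝔔over 𝔮 h𝔮).over]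
    · exact smul_eq_of_mem p q K L hpq hq1 (𝔔 𝔮) (h𝔔q 𝔮 h𝔮)
  have h2 : ∀ P : Ideal (𝓞 L), P.IsPrime → P ≠ ⊥ → (∀ 𝔮 ∈ T, P ≠ 𝔔 𝔮) →
      P.ramificationIdx (𝓞 K) = 1 := by
    intro P hP hP0 hne
    by_cases hPq : (q : 𝓞 L) ∈ P
    · exfalso
      set 𝔮 : Ideal (𝓞 K) := Ideal.under (𝓞 K) P with h𝔮def
      have h𝔮prime : 𝔮.IsPrime := Ideal.IsPrime.under (𝓞 K) P
      have h𝔮q : (q : 𝓞 K) ∈ 𝔮 := by
        rw [h𝔮def, Ideal.under_def, Ideal.mem_comap, map_natCast]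
        exact hPq
      have h𝔮T : 𝔮 ∈ T := (hT 𝔮).mpr ⟨h𝔮prime, h𝔮q⟩
      have hPover : P.LiesOver 𝔮 := ⟨rfl⟩
      have := h𝔔prime 𝔮 h𝔮T
      have := h𝔔over 𝔮 h𝔮T
      obtain ⟨g, hg⟩ := Ideal.exists_smul_eq_of_isGaloisGroup 𝔮 (𝔔 𝔮) P (L ≃ₐ[K] L)
      rw [(h1 𝔮 h𝔮T).2.2.2 g] at hg
      exact hne 𝔮 h𝔮T hg.symm
    · exact ramificationIdx_eq_one p q K L hpq P hP0 hPq
  have hI0 : Ideal.span {β} ≠ (⊥ : Ideal (𝓞 L)) := by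
    rw [Ne, Ideal.span_singleton_eq_bot]
    exact hβ0
  obtain ⟨J, r, hJ, hrel, hmult⟩ :=
    relNorm_of_invariant (R := 𝓞 K) (S := 𝓞 L) (G := L ≃ₐ[K] L) T 𝔔 h1 h2
      (Ideal.span {β}) hI0 hβinv
  have hfin : Module.finrank (𝓞 K) (𝓞 L) = q - 1 := by
    rw [← IsGaloisGroup.card_eq_finrank' (L ≃ₐ[K] L) (𝓞 K) (𝓞 L),
      IsGalois.card_aut_eq_finrank, finrank_eq p q K L hpq]
  refine ⟨g₀, J, r, Algebra.intNorm (𝓞 K) (𝓞 L) β, hg₀, hJ, ?_, ?_, ?_⟩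
  · exact Algebra.intNorm_ne_zero.mpr hβ0
  · rw [← Ideal.relNorm_singleton, hrel, hfin]
  · intro 𝔮 h𝔮
    have hP := h𝔔prime 𝔮 h𝔮
    have hPq := h𝔔q 𝔮 h𝔮
    have hPover := h𝔔over 𝔮 h𝔮
    have hPℤ : (𝔔 𝔮).LiesOver (Ideal.span {(q : ℤ)}) := liesOver_of_mem q L (𝔔 𝔮) hPq
    have hπ : ζq - 1 ∈ 𝔔 𝔮 := zeta_sub_one_mem (𝔔 𝔮) hPq hζq.pow_eq_one
    have hπ2 : ζq - 1 ∉ 𝔔 𝔮 ^ 2 := by
      refine zeta_sub_one_notMem_sq hζq (𝔔 𝔮) hqL0 ?_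
      rw [ramificationIdx_int_of_mem p q K L hpq (𝔔 𝔮) hPq]
      have := hq.out.two_le
      omega
    have hτζq : τ • ζq = ζq ^ g₀ := by
      apply RingOfIntegers.ext
      change τ (IsCyclotomicExtension.zeta q K L) = (IsCyclotomicExtension.zeta q K L) ^ g₀
      exact hτζ
    have hγ : (MulSemiringAction.toRingHom (L ≃ₐ[K] L) (𝓞 L) τ) (ζq - 1) =
        (ζq - 1) * ∑ i ∈ Finset.range g₀, ζq ^ i := by
      rw [mul_geom_sum, map_sub, map_one, MulSemiringAction.toRingHom_apply, hτζq]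
    have hg : (∑ i ∈ Finset.range g₀, ζq ^ i) - (g₀ : 𝓞 L) ∈ 𝔔 𝔮 := by
      have h1' : Ideal.Quotient.mk (𝔔 𝔮) ζq = 1 := by
        rw [← map_one (Ideal.Quotient.mk (𝔔 𝔮)), Ideal.Quotient.eq]
        exact hπ
      rw [← Ideal.Quotient.eq, map_sum, map_natCast]
      simp [h1']
    have hx : β ∈ 𝔔 𝔮 ^ r 𝔮 :=
      (Ideal.span_singleton_le_iff_mem _).mp (hmult 𝔮 h𝔮).1
    have hx' : β ∉ 𝔔 𝔮 ^ (r 𝔮 + 1) := fun h =>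
      (hmult 𝔮 h𝔮).2 ((Ideal.span_singleton_le_iff_mem _).mpr h)
    have hloc := local_index (𝔔 𝔮) (h𝔔0 𝔮 h𝔮)
      (MulSemiringAction.toRingHom (L ≃ₐ[K] L) (𝓞 L) τ)
      (fun a => smul_sub_mem_of_mem p q K L hpq hq1 (𝔔 𝔮) hPq τ a)
      (ζq - 1) (∑ i ∈ Finset.range g₀, ζq ^ i) (g₀ : 𝓞 L) hπ hπ2 hγ hg
      β (eta p K L ζp ζq e) (r 𝔮) hx hx' hβ
    have hcongr := eta_sub_del_mem p K L ζp ζq e (𝔔 𝔮) hπ
    have hfinal : algebraMap (𝓞 K) (𝓞 L) (del p K ζp e * (g₀ : 𝓞 K) ^ r 𝔮 - 1) ∈ 𝔔 𝔮 := by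
      have e1 : algebraMap (𝓞 K) (𝓞 L) (del p K ζp e * (g₀ : 𝓞 K) ^ r 𝔮 - 1) =
          (eta p K L ζp ζq e * (g₀ : 𝓞 L) ^ r 𝔮 - 1) -
            (eta p K L ζp ζq e - algebraMap (𝓞 K) (𝓞 L) (del p K ζp e)) * (g₀ : 𝓞 L) ^ r 𝔮 := by
        rw [map_sub, map_mul, map_pow, map_natCast, map_one]
        ring
      rw [e1]
      exact Ideal.sub_mem _ hloc (Ideal.mul_mem_right _ _ hcongr)
    have hmem : del p K ζp e * (g₀ : 𝓞 K) ^ r 𝔮 - 1 ∈ Ideal.under (𝓞 K) (𝔔 𝔮) := by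
      rw [Ideal.under_def, Ideal.mem_comap]
      exact hfinal
    rwa [← (h𝔔over 𝔮 h𝔮).over] at hmem

end Core

end Fermat.Agent.S14.Thaine102
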