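import Fermat.Agent.S14.Thaine102.IndexArith

/-!
# S14 / Thaine block — the residue-field side of the index computation (helper102)
-/

set_option autoImplicit false

namespace Fermat.Agent.S14.Thaine102

section Reindex

variable (p : ℕ) [hp : Fact p.Prime]

/-- Products over `1 ≤ b ≤ p - 1` are products over the units of `ZMod p`. -/
theorem prod_Icc_eq_prod_units {M : Type*} [CommMonoid M] (F : ℕ → M) :
    ∏ b ∈ Finset.Icc 1 (p - 1), F b = ∏ u : (ZMod p)ˣ, F ((u : ZMod p).val) := by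
  have hp1 := hp.out.one_lt
  have hcop : ∀ b ∈ Finset.Icc 1 (p - 1), Nat.Coprime b p := by
    intro b hb
    rw [Finset.mem_Icc] at hb
    exact (Nat.coprime_of_lt_prime (by omega) (by omega) hp.out).symm
  symm
  refine Finset.prod_bij' (fun u _ => ((u : (ZMod p)ˣ) : ZMod p).val)
    (fun b hb => ZMod.unitOfCoprime b (hcop b hb)) ?_ ?_ ?_ ?_ ?_
  · intro u _
    rw [Finset.mem_Icc]
    have h1 : 0 < ((u : (ZMod p)ˣ) : ZMod p).val := ZMod.val_pos.mpr u.ne_zero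
    have h2 := ZMod.val_lt ((u : (ZMod p)ˣ) : ZMod p)
    omega
  · intro b _
    exact Finset.mem_univ _
  · intro u _
    apply Units.ext
    rw [ZMod.coe_unitOfCoprime, ZMod.natCast_zmod_val]
  · intro b hb
    rw [ZMod.coe_unitOfCoprime, ZMod.val_cast_of_lt]
    rw [Finset.mem_Icc] at hb
    omega
  · intro u _
    rfl

end Reindex

end Fermat.Agent.S14.Thaine102

namespace Fermat.Agent.S14.Thaine102

section FieldSide

variable {R k : Type*} [CommRing R] [Field k] [Fintype k]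

/-- **Residue field side.** The index `ρ` of the conjugate `σ⁻¹ δ` is `a ^ (p-3)` times the
index `ρ₁` of `δ`, modulo `p`. -/
theorem field_side (p q : ℕ) [hp : Fact p.Prime] [hq : Fact q.Prime] (hk : Fintype.card k = q)
    (hpq : p ∣ q - 1) (φ : R →+* k) (ζ : R) (hζ : ζ ^ p = 1)
    (g₀ : ℕ) (hg₀ : orderOf (g₀ : ZMod q) = q - 1)
    (a : (ZMod p)ˣ) (ρ ρ₁ : ℕ)
    (h₁ : φ (∏ b ∈ Finset.Icc 1 (p - 1), (ζ ^ b - 1) ^ (b ^ (p - 3))) * (g₀ : k) ^ ρ₁ = 1)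
    (hₐ : φ (∏ b ∈ Finset.Icc 1 (p - 1),
      ((ζ ^ ((a⁻¹ : (ZMod p)ˣ) : ZMod p).val) ^ b - 1) ^ (b ^ (p - 3))) * (g₀ : k) ^ ρ = 1) :
    (ρ : ZMod p) = ((((a : ZMod p).val ^ (p - 3) : ℕ)) : ZMod p) * (ρ₁ : ZMod p) := by
  classical
  have : NeZero p := ⟨hp.out.ne_zero⟩
  set y : (ZMod p)ˣ → k := fun u => φ (ζ ^ ((u : ZMod p).val) - 1) with hy
  -- Step 1
  have e₁ : φ (∏ b ∈ Finset.Icc 1 (p - 1), (ζ ^ b - 1) ^ (b ^ (p - 3))) =
      ∏ u : (ZMod p)ˣ, y u ^ ((u : ZMod p).val ^ (p - 3)) := by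
    rw [map_prod, prod_Icc_eq_prod_units p (fun b => φ ((ζ ^ b - 1) ^ (b ^ (p - 3))))]
    refine Finset.prod_congr rfl fun u _ => ?_
    rw [map_pow]
  -- Step 2
  have hpowmod : ∀ n : ℕ, ζ ^ n = ζ ^ (n % p) := fun n => pow_eq_pow_mod n hζ
  have e₂ : φ (∏ b ∈ Finset.Icc 1 (p - 1),
      ((ζ ^ ((a⁻¹ : (ZMod p)ˣ) : ZMod p).val) ^ b - 1) ^ (b ^ (p - 3))) =
      ∏ u : (ZMod p)ˣ, y u ^ (((a * u : (ZMod p)ˣ) : ZMod p).val ^ (p - 3)) := by
    rw [map_prod, prod_Icc_eq_prod_units p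
      (fun b => φ (((ζ ^ ((a⁻¹ : (ZMod p)ˣ) : ZMod p).val) ^ b - 1) ^ (b ^ (p - 3))))]
    rw [← Equiv.prod_comp (Equiv.mulLeft a)]
    refine Finset.prod_congr rfl fun u _ => ?_
    rw [map_pow, Equiv.coe_mulLeft, hy]
    congr 3
    rw [← pow_mul, hpowmod, ← ZMod.val_mul, ← Units.val_mul, inv_mul_cancel_left]
  rw [e₁] at h₁
  rw [e₂] at hₐ
  -- Step 3
  have hyne : ∀ u : (ZMod p)ˣ, y u ≠ 0 := by
    intro u h0
    have hprod : ∏ u : (ZMod p)ˣ, y u ^ ((u : ZMod p).val ^ (p - 3)) ≠ 0 := by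
      intro h
      rw [h, zero_mul] at h₁
      exact zero_ne_one h₁
    rw [Finset.prod_ne_zero_iff] at hprod
    have := hprod u (Finset.mem_univ u)
    rw [h0, zero_pow] at this
    · exact this rfl
    · exact pow_ne_zero _ ((ZMod.val_ne_zero _).mpr u.ne_zero)
  have hg0 : (g₀ : k) ≠ 0 := natCast_ne_zero_of_orderOf hk g₀ hg₀
  -- Step 5
  have h₁' : (∏ u : (ZMod p)ˣ, (Units.mk0 (y u) (hyne u)) ^ ((u : ZMod p).val ^ (p - 3))) *
      (Units.mk0 (g₀ : k) hg0) ^ ρ₁ = 1 := by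
    apply Units.ext
    simp only [Units.val_mul, Units.coe_prod, Units.val_pow_eq_pow_val, Units.val_mk0,
      Units.val_one]
    exact h₁
  have hₐ' : (∏ u : (ZMod p)ˣ, (Units.mk0 (y u) (hyne u)) ^
      (((a * u : (ZMod p)ˣ) : ZMod p).val ^ (p - 3))) * (Units.mk0 (g₀ : k) hg0) ^ ρ = 1 := by
    apply Units.ext
    simp only [Units.val_mul, Units.coe_prod, Units.val_pow_eq_pow_val, Units.val_mk0,
      Units.val_one]
    exact hₐ
  refine index_congr Finset.univ p (Units.mk0 (g₀ : k) hg0)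
    (fun m hm => dvd_of_pow_eq_pow hk hpq g₀ hg₀ _ rfl m hm)
    (fun u => Units.mk0 (y u) (hyne u))
    (fun u => ((a * u : (ZMod p)ˣ) : ZMod p).val ^ (p - 3))
    (fun u => ((u : (ZMod p)ˣ) : ZMod p).val ^ (p - 3))
    ((a : ZMod p).val ^ (p - 3)) ?_ ρ ρ₁ h₁' hₐ'
  intro u _
  push_cast
  rw [ZMod.natCast_zmod_val, ZMod.natCast_zmod_val, ZMod.natCast_zmod_val, mul_pow]

end FieldSide

end Fermat.Agent.S14.Thaine102
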