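import Mathlib

/-!
# S14 / Thaine block — the extension `L = K(ζ_q)` of `K = ℚ(ζ_p)` (helper102)
-/

set_option autoImplicit false

open NumberField Polynomial

namespace Fermat.Agent.S14.Thaine102

section Fields

variable (p q : ℕ) [hp : Fact p.Prime] [hq : Fact q.Prime]
variable (K L : Type) [Field K] [NumberField K] [Field L] [NumberField L] [Algebra K L]
variable [IsCyclotomicExtension {p} ℚ K] [IsCyclotomicExtension {q} K L]

include K in
/-- `L = ℚ(ζ_{pq})`. -/
theorem isCyclotomicExtension_mul (hpq : p ≠ q) : IsCyclotomicExtension {p * q} ℚ L := by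
  have hp0 : p ≠ 0 := hp.out.ne_zero
  have hq0 : q ≠ 0 := hq.out.ne_zero
  have : NeZero p := ⟨hp0⟩
  have : NeZero q := ⟨hq0⟩
  have : NeZero (p * q) := ⟨mul_ne_zero hp0 hq0⟩
  have h1 : IsCyclotomicExtension ({p} ∪ {q}) ℚ L :=
    IsCyclotomicExtension.trans {p} {q} ℚ K L (algebraMap K L).injective
  have hζp : IsPrimitiveRoot (algebraMap K L (IsCyclotomicExtension.zeta p ℚ K)) p :=
    (IsCyclotomicExtension.zeta_spec p ℚ K).map_of_injective (algebraMap K L).injective
  have hζq : IsPrimitiveRoot (IsCyclotomicExtension.zeta q K L) q :=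
    IsCyclotomicExtension.zeta_spec q K L
  have hlcm : Nat.lcm p q = p * q :=
    ((Nat.coprime_primes hp.out hq.out).mpr hpq).lcm_eq_mul
  have hζ := hζp.pow_mul_pow_lcm hζq hp0 hq0
  rw [hlcm] at hζ
  have h2 : IsCyclotomicExtension (({p} ∪ {q}) ∪ {p * q}) ℚ L :=
    IsCyclotomicExtension.union_of_isPrimitiveRoot ({p} ∪ {q}) ℚ L hζ
  have h3 : IsCyclotomicExtension {p * q} ℚ L ↔ IsCyclotomicExtension ({p * q} ∪ {p}) ℚ L :=
    IsCyclotomicExtension.iff_union_of_dvd ℚ L
      ⟨p * q, rfl, mul_ne_zero hp0 hq0, dvd_mul_right p q⟩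
  have h4 : IsCyclotomicExtension ({p * q} ∪ {p}) ℚ L ↔
      IsCyclotomicExtension (({p * q} ∪ {p}) ∪ {q}) ℚ L :=
    IsCyclotomicExtension.iff_union_of_dvd ℚ L
      ⟨p * q, Or.inl rfl, mul_ne_zero hp0 hq0, dvd_mul_left q p⟩
  rw [h3, h4]
  have hset : (({p * q} ∪ {p}) ∪ {q} : Set ℕ) = ({p} ∪ {q}) ∪ {p * q} := by
    ext x
    simp only [Set.mem_union, Set.mem_singleton_iff]
    tauto
  rw [hset]
  exact h2

include p in
theorem finrank_eq (hpq : p ≠ q) : Module.finrank K L = q - 1 := by
  have : NeZero p := ⟨hp.out.ne_zero⟩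
  have : NeZero (p * q) := ⟨mul_ne_zero hp.out.ne_zero hq.out.ne_zero⟩
  have := isCyclotomicExtension_mul p q K L hpq
  have h1 : Module.finrank ℚ K = p - 1 := by
    rw [IsCyclotomicExtension.Rat.finrank p K, Nat.totient_prime hp.out]
  have h2 : Module.finrank ℚ L = (p - 1) * (q - 1) := by
    rw [IsCyclotomicExtension.Rat.finrank (p * q) L,
      Nat.totient_mul ((Nat.coprime_primes hp.out hq.out).mpr hpq),
      Nat.totient_prime hp.out, Nat.totient_prime hq.out]
  have h3 := Module.finrank_mul_finrank ℚ K L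
  rw [h1, h2] at h3
  have hp1 : 0 < p - 1 := Nat.sub_pos_of_lt hp.out.one_lt
  exact Nat.eq_of_mul_eq_mul_left hp1 h3

include p L in
theorem irreducible_cyclotomic (hpq : p ≠ q) : Irreducible (cyclotomic q K) := by
  have : NeZero q := ⟨hq.out.ne_zero⟩
  have hζ : IsPrimitiveRoot (IsCyclotomicExtension.zeta q K L) q :=
    IsCyclotomicExtension.zeta_spec q K L
  have hdeg : (minpoly K (IsCyclotomicExtension.zeta q K L)).natDegree = q - 1 := by
    rw [← IsPrimitiveRoot.powerBasis_dim K hζ, ← PowerBasis.finrank, finrank_eq p q K L hpq]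
  have hdvd : minpoly K (IsCyclotomicExtension.zeta q K L) ∣ cyclotomic q K := by
    apply minpoly.dvd
    rw [aeval_def, eval₂_eq_eval_map, map_cyclotomic]
    exact hζ.isRoot_cyclotomic (NeZero.pos q)
  have hint : IsIntegral K (IsCyclotomicExtension.zeta q K L) :=
    hζ.isIntegral (NeZero.pos q) |>.tower_top
  have heq : cyclotomic q K = minpoly K (IsCyclotomicExtension.zeta q K L) := by
    refine Polynomial.eq_of_monic_of_dvd_of_natDegree_le (minpoly.monic hint)
      (cyclotomic.monic q K) hdvd ?_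
    rw [natDegree_cyclotomic, Nat.totient_prime hq.out, hdeg]
  rw [heq]
  exact minpoly.irreducible hint

end Fields

end Fermat.Agent.S14.Thaine102

namespace Fermat.Agent.S14.Thaine102

section Generator

variable (p q : ℕ) [hp : Fact p.Prime] [hq : Fact q.Prime]
variable (K L : Type) [Field K] [NumberField K] [Field L] [NumberField L] [Algebra K L]
variable [IsCyclotomicExtension {p} ℚ K] [IsCyclotomicExtension {q} K L]

include p in
/-- A generator `τ` of `Gal(L/K)` with `τ ζ_q = ζ_q ^ g`, `g` a primitive root mod `q`. -/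
theorem exists_generator (hpq : p ≠ q) :
    ∃ (τ : L ≃ₐ[K] L) (g : ℕ), (∀ x, x ∈ Subgroup.zpowers τ) ∧
      τ (IsCyclotomicExtension.zeta q K L) = (IsCyclotomicExtension.zeta q K L) ^ g ∧
      orderOf (g : ZMod q) = q - 1 := by
  have : NeZero q := ⟨hq.out.ne_zero⟩
  have hirr := irreducible_cyclotomic p q K L hpq
  let e := IsCyclotomicExtension.autEquivPow L hirr
  obtain ⟨u, hu⟩ := IsCyclic.exists_generator (α := (ZMod q)ˣ)
  refine ⟨e.symm u, (u : ZMod q).val, ?_, ?_, ?_⟩
  · intro x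
    obtain ⟨k, hk⟩ := Subgroup.mem_zpowers_iff.mp (hu (e x))
    refine Subgroup.mem_zpowers_iff.mpr ⟨k, ?_⟩
    apply e.injective
    rw [map_zpow, MulEquiv.apply_symm_apply, hk]
  · have h := (IsCyclotomicExtension.zeta_spec q K L).autToPow_spec K (e.symm u)
    have h2 : (IsCyclotomicExtension.zeta_spec q K L).autToPow K (e.symm u) = u :=
      e.apply_symm_apply u
    rw [h2] at h
    exact h.symm
  · rw [ZMod.natCast_zmod_val, orderOf_units, orderOf_eq_card_of_forall_mem_zpowers hu,
      Nat.card_eq_fintype_card, ZMod.card_units_eq_totient, Nat.totient_prime hq.out]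

end Generator

end Fermat.Agent.S14.Thaine102
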