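import Mathlib

/-!
# S14 / Thaine block — index arithmetic modulo `p`-th powers (helper102)
-/

set_option autoImplicit false

namespace Fermat.Agent.S14.Thaine102

section Group

variable {C : Type*} [CommGroup C]

theorem zpow_pow_comm (A : C) (z : ℤ) (p : ℕ) : (A ^ p) ^ z = (A ^ z) ^ p := by
  rw [← zpow_natCast A p, ← zpow_natCast (A ^ z) p, ← zpow_mul, ← zpow_mul, mul_comm]

/-- If `E i ≡ m * E' i mod p` then `∏ x i ^ E i = (∏ x i ^ E' i) ^ m * W ^ p`. -/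
theorem exists_prod_pow_eq {ι : Type*} (s : Finset ι) (p : ℕ) (x : ι → C) (E E' : ι → ℕ) (m : ℕ)
    (hE : ∀ i ∈ s, (E i : ZMod p) = (m : ZMod p) * (E' i : ZMod p)) :
    ∃ W : C, ∏ i ∈ s, x i ^ E i = (∏ i ∈ s, x i ^ E' i) ^ m * W ^ p := by
  have hk : ∀ i ∈ s, ∃ k : ℤ, (E i : ℤ) = (E' i : ℤ) * m + k * p := by
    intro i hi
    have h := hE i hi
    have h2 : ((E i : ℤ) : ZMod p) = ((m * E' i : ℤ) : ZMod p) := by
      push_cast
      exact h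
    rw [ZMod.intCast_eq_intCast_iff_dvd_sub] at h2
    obtain ⟨k, hk⟩ := h2
    exact ⟨-k, by linarith⟩
  choose! k hk using hk
  refine ⟨∏ i ∈ s, x i ^ k i, ?_⟩
  rw [← Finset.prod_pow, ← Finset.prod_pow, ← Finset.prod_mul_distrib]
  refine Finset.prod_congr rfl fun i hi => ?_
  rw [← zpow_natCast (x i) (E i), hk i hi, zpow_add, zpow_mul, zpow_mul, zpow_natCast,
    zpow_natCast, zpow_natCast]

/-- **Index congruence.** -/
theorem index_congr {ι : Type*} (s : Finset ι) (p : ℕ) (g : C)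
    (hg : ∀ m : ℤ, (∃ w : C, g ^ m = w ^ p) → (p : ℤ) ∣ m)
    (x : ι → C) (E E' : ι → ℕ) (m : ℕ)
    (hE : ∀ i ∈ s, (E i : ZMod p) = (m : ZMod p) * (E' i : ZMod p))
    (ρ ρ' : ℕ) (h' : (∏ i ∈ s, x i ^ E' i) * g ^ ρ' = 1)
    (h : (∏ i ∈ s, x i ^ E i) * g ^ ρ = 1) :
    (ρ : ZMod p) = (m : ZMod p) * (ρ' : ZMod p) := by
  obtain ⟨W, hW⟩ := exists_prod_pow_eq s p x E E' m hE
  have e1 : ∏ i ∈ s, x i ^ E' i = (g ^ ρ')⁻¹ := eq_inv_of_mul_eq_one_left h'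
  have e2 : ∏ i ∈ s, x i ^ E i = (g ^ ρ)⁻¹ := eq_inv_of_mul_eq_one_left h
  rw [e1, e2, inv_pow] at hW
  have key : g ^ ((ρ' : ℤ) * m - ρ) = W ^ p := by
    rw [zpow_sub, zpow_mul, zpow_natCast, zpow_natCast, zpow_natCast, hW, mul_inv_cancel_left]
  have hdvd := hg _ ⟨W, key⟩
  have : (((ρ' : ℤ) * m - ρ : ℤ) : ZMod p) = 0 := (ZMod.intCast_zmod_eq_zero_iff_dvd _ p).mpr hdvd
  push_cast at this
  rw [sub_eq_zero] at this
  rw [← this, mul_comm]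

/-- **Class group step.** -/
theorem exists_pow_eq_of_relation {ι : Type*} (s : Finset ι) (p : ℕ) [hp : Fact p.Prime]
    (c : ι → C) (a ρ : ι → ℕ) (ρ₁ : ℕ) (n : ℕ) (hpn : p ∣ n) (Y : C)
    (hrel : Y ^ n * ∏ i ∈ s, c i ^ ρ i = 1)
    (hρ : ∀ i ∈ s, (ρ i : ZMod p) = (ρ₁ : ZMod p) * (a i : ZMod p))
    (hρ₁ : (ρ₁ : ZMod p) ≠ 0) :
    ∃ J : C, ∏ i ∈ s, c i ^ a i = J ^ p := by
  obtain ⟨W, hW⟩ := exists_prod_pow_eq s p c ρ a ρ₁ hρ
  obtain ⟨n', rfl⟩ := hpn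
  set Θ := ∏ i ∈ s, c i ^ a i with hΘ
  obtain ⟨A, hA⟩ : ∃ A : C, A = (Y ^ n')⁻¹ * W⁻¹ := ⟨_, rfl⟩
  -- `Θ ^ ρ₁` is a `p`-th power
  have h1 : Θ ^ ρ₁ = A ^ p := by
    rw [hW] at hrel
    have h2 : A ^ p = (Y ^ (p * n') * W ^ p)⁻¹ := by
      rw [hA, mul_pow, inv_pow, inv_pow, ← pow_mul, mul_comm n' p, mul_inv]
    rw [h2, eq_inv_iff_mul_eq_one, ← hrel]
    exact mul_left_comm _ _ _
  -- Bézout
  have hcop : Nat.Coprime ρ₁ p := by
    rw [Nat.coprime_comm, Nat.Prime.coprime_iff_not_dvd hp.out]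
    intro hd
    exact hρ₁ ((ZMod.natCast_eq_zero_iff _ _).mpr hd)
  have hbez : (ρ₁ : ℤ) * Nat.gcdA ρ₁ p + Nat.gcdB ρ₁ p * p = 1 := by
    have := Nat.gcd_eq_gcd_ab ρ₁ p
    rw [hcop.gcd_eq_one] at this
    have h3 : ((1 : ℕ) : ℤ) = ρ₁ * Nat.gcdA ρ₁ p + p * Nat.gcdB ρ₁ p := this
    rw [mul_comm (Nat.gcdB ρ₁ p : ℤ)]
    exact_mod_cast h3.symm
  refine ⟨A ^ (Nat.gcdA ρ₁ p) * Θ ^ (Nat.gcdB ρ₁ p), ?_⟩
  calc Θ = Θ ^ (1 : ℤ) := (zpow_one Θ).symm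
    _ = Θ ^ ((ρ₁ : ℤ) * Nat.gcdA ρ₁ p + Nat.gcdB ρ₁ p * p) := by rw [hbez]
    _ = (Θ ^ ρ₁) ^ (Nat.gcdA ρ₁ p) * (Θ ^ (Nat.gcdB ρ₁ p)) ^ p := by
        rw [zpow_add, zpow_mul, zpow_natCast, zpow_mul, zpow_natCast]
    _ = (A ^ (Nat.gcdA ρ₁ p) * Θ ^ (Nat.gcdB ρ₁ p)) ^ p := by
        rw [h1, mul_pow, zpow_pow_comm]

end Group

end Fermat.Agent.S14.Thaine102

namespace Fermat.Agent.S14.Thaine102

section FiniteField

variable {k : Type*} [Field k] [Fintype k]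

/-- A primitive root `g₀` mod `q` is nonzero in a field with `q` elements. -/
theorem natCast_ne_zero_of_orderOf {q : ℕ} [hq : Fact q.Prime] (hk : Fintype.card k = q)
    (g₀ : ℕ) (hg₀ : orderOf (g₀ : ZMod q) = q - 1) : (g₀ : k) ≠ 0 := by
  have hchar : CharP k q := charP_of_card_eq_prime hk
  intro h0
  have h1 : (g₀ : ZMod q) = 0 := by
    rw [ZMod.natCast_eq_zero_iff]
    exact (CharP.cast_eq_zero_iff k q g₀).mp h0
  rw [h1] at hg₀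
  have h2 : orderOf (0 : ZMod q) = 0 := by
    rw [orderOf_eq_zero_iff']
    intro n hn
    rw [zero_pow hn.ne']
    exact zero_ne_one
  have := hq.out.two_le
  omega

/-- In a field with `q` elements, a power `g ^ m` of a primitive root which is a `p`-th power
has `p ∣ m` (for `p ∣ q - 1`). -/
theorem dvd_of_pow_eq_pow {p q : ℕ} [hq : Fact q.Prime] (hk : Fintype.card k = q)
    (hpq : p ∣ q - 1) (g₀ : ℕ) (hg₀ : orderOf (g₀ : ZMod q) = q - 1)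
    (g : kˣ) (hg : (g : k) = (g₀ : k)) (m : ℤ) (h : ∃ w : kˣ, g ^ m = w ^ p) :
    (p : ℤ) ∣ m := by
  classical
  have hchar : CharP k q := charP_of_card_eq_prime hk
  have hq1 : 0 < q - 1 := Nat.sub_pos_of_lt hq.out.one_lt
  have hinj : Function.Injective (ZMod.castHom (dvd_refl q) k) := RingHom.injective _
  have h3 : orderOf ((g₀ : k)) = orderOf (g₀ : ZMod q) := by
    have := orderOf_injective ((ZMod.castHom (dvd_refl q) k).toMonoidHom) hinj (g₀ : ZMod q)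
    simpa using this
  have hord : orderOf g = q - 1 := by
    rw [← orderOf_units, hg, h3, hg₀]
  obtain ⟨w, hw⟩ := h
  obtain ⟨n, hn⟩ := hpq
  have hn0 : n ≠ 0 := by
    rintro rfl
    rw [mul_zero] at hn
    omega
  have hw1 : w ^ (q - 1) = 1 := by
    have : Fintype.card kˣ = q - 1 := by rw [Fintype.card_units, hk]
    rw [← this]
    exact pow_card_eq_one
  have h1 : g ^ (m * n) = 1 := by
    rw [zpow_mul, hw, zpow_natCast, ← pow_mul, ← hn, hw1]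
  have h2 := (orderOf_dvd_iff_zpow_eq_one).mpr h1
  rw [hord, hn] at h2
  push_cast at h2
  exact (mul_dvd_mul_iff_right (by exact_mod_cast hn0)).mp h2

end FiniteField

end Fermat.Agent.S14.Thaine102
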