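import Fermat.Agent.S14.Spec
import Fermat.Agent.S14.Thaine102.Core
import Fermat.Agent.S14.Thaine102.FieldSide

/-!
# S14 / Thaine block — `Spec.ThaineStatement` (helper102)
-/

set_option autoImplicit false

open NumberField Polynomial
open scoped Pointwise nonZeroDivisors

namespace Fermat.Agent.S14.Thaine102

section Setup

variable (p q : ℕ) [hp : Fact p.Prime] [hq : Fact q.Prime]
variable (K : Type) [Field K] [NumberField K] [IsCyclotomicExtension {p} ℚ K]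

/-- A degree one prime `Q ∤ p` of `ℚ(ζ_p)` has norm `q ≡ 1 mod p`. -/
theorem natCast_zmod_eq_one (hpq : p ≠ q) (Q : Ideal (𝓞 K)) [hQ : Q.IsPrime]
    (hQq : Ideal.absNorm Q = q) : (q : ZMod p) = 1 := by
  have : NeZero p := ⟨hp.out.ne_zero⟩
  have hmem : (q : 𝓞 K) ∈ Q := hQq ▸ Ideal.absNorm_mem Q
  have hover : Q.LiesOver (Ideal.span {(q : ℤ)}) := liesOver_of_mem q K Q hmem
  have hqp : ¬ q ∣ p := fun h => hpq ((Nat.prime_dvd_prime_iff_eq hq.out hp.out).mp h).symm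
  have h1 := IsCyclotomicExtension.Rat.inertiaDeg_eq_of_not_dvd q K Q (m := p) hqp
  have hQ0 : Q ≠ ⊥ := by
    rintro rfl
    rw [Ideal.mem_bot] at hmem
    exact hq.out.ne_zero (by exact_mod_cast hmem)
  have hQmax : Q.IsMaximal := hQ.isMaximal hQ0
  have h2 := Ideal.absNorm_eq_pow_inertiaDeg' Q hq.out
  rw [Ideal.inertiaDeg'_eq_inertiaDeg, hQq, h1] at h2
  have h3 : orderOf (q : ZMod p) = 1 := by
    have : q ^ 1 = q ^ orderOf (q : ZMod p) := by rw [pow_one]; exact h2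
    exact (Nat.pow_right_injective hq.out.two_le this).symm
  exact orderOf_eq_one_iff.mp h3

omit hp [IsCyclotomicExtension {p} ℚ K] in
theorem smul_natCast_eq (σ : K ≃ₐ[ℚ] K) (n : ℕ) : σ • (n : 𝓞 K) = (n : 𝓞 K) := by
  apply RingOfIntegers.ext
  change σ ((n : 𝓞 K) : K) = ((n : 𝓞 K) : K)
  simp

include p in
/-- The conjugates of `Q` are exactly the primes containing `q`. -/
theorem exists_smul_eq_iff (Q : Ideal (𝓞 K)) [hQ : Q.IsPrime]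
    (hQq : Ideal.absNorm Q = q) (𝔮 : Ideal (𝓞 K)) :
    (∃ σ : K ≃ₐ[ℚ] K, σ • Q = 𝔮) ↔ 𝔮.IsPrime ∧ (q : 𝓞 K) ∈ 𝔮 := by
  have : NeZero p := ⟨hp.out.ne_zero⟩
  have : IsGalois ℚ K := IsCyclotomicExtension.isGalois {p} ℚ K
  have hmem : (q : 𝓞 K) ∈ Q := hQq ▸ Ideal.absNorm_mem Q
  constructor
  · rintro ⟨σ, rfl⟩
    refine ⟨inferInstance, ?_⟩
    rw [← smul_natCast_eq K σ q]
    exact Ideal.smul_mem_pointwise_smul σ _ Q hmem
  · rintro ⟨h𝔮, h𝔮q⟩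
    have hover : Q.LiesOver (Ideal.span {(q : ℤ)}) := liesOver_of_mem q K Q hmem
    have hover' : 𝔮.LiesOver (Ideal.span {(q : ℤ)}) := liesOver_of_mem q K 𝔮 h𝔮q
    exact Ideal.exists_smul_eq_of_isGaloisGroup (Ideal.span {(q : ℤ)}) Q 𝔮 (K ≃ₐ[ℚ] K)

/-- The stabilizer of a degree one prime `Q ∤ p` is trivial. -/
theorem smul_injective (hpq : p ≠ q) (Q : Ideal (𝓞 K)) [hQ : Q.IsPrime]
    (hQq : Ideal.absNorm Q = q) :
    Function.Injective (fun σ : K ≃ₐ[ℚ] K => σ • Q) := by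
  have : NeZero p := ⟨hp.out.ne_zero⟩
  have : IsGalois ℚ K := IsCyclotomicExtension.isGalois {p} ℚ K
  have hmem : (q : 𝓞 K) ∈ Q := hQq ▸ Ideal.absNorm_mem Q
  have hover : Q.LiesOver (Ideal.span {(q : ℤ)}) := liesOver_of_mem q K Q hmem
  have hqp : ¬ q ∣ p := fun h => hpq ((Nat.prime_dvd_prime_iff_eq hq.out hp.out).mp h).symm
  have hq1 := natCast_zmod_eq_one p q K hpq Q hQq
  have hcard := Ideal.card_stabilizer_eq (G := K ≃ₐ[ℚ] K) (Ideal.span {(q : ℤ)}) Q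
  rw [IsCyclotomicExtension.Rat.ramificationIdxIn_eq_of_not_dvd q K (m := p) hqp,
    IsCyclotomicExtension.Rat.inertiaDegIn_eq_of_not_dvd q K (m := p) hqp, hq1, orderOf_one,
    mul_one] at hcard
  have hbot : MulAction.stabilizer (K ≃ₐ[ℚ] K) Q = ⊥ := Subgroup.eq_bot_of_card_eq _ hcard
  intro σ σ' h
  have h0 : σ • Q = σ' • Q := h
  have h' : σ'⁻¹ * σ ∈ MulAction.stabilizer (K ≃ₐ[ℚ] K) Q := by
    rw [MulAction.mem_stabilizer_iff, mul_smul, h0]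
    exact inv_smul_smul σ' Q
  rw [hbot, Subgroup.mem_bot, inv_mul_eq_one] at h'
  exact h'.symm

open Spec in
/-- `σ ζ = ζ ^ (cycloGalEquiv σ)` in `𝓞 K`. -/
theorem smul_zetaInt (σ : K ≃ₐ[ℚ] K) :
    haveI : NeZero p := ⟨hp.out.ne_zero⟩
    σ • zetaInt p K =
      zetaInt p K ^ ((JacobiSumStickelberger.cycloGalEquiv p K σ : (ZMod p)ˣ) : ZMod p).val := by
  have : NeZero p := ⟨hp.out.ne_zero⟩
  apply RingOfIntegers.ext
  change σ (IsCyclotomicExtension.zeta p ℚ K) = (IsCyclotomicExtension.zeta p ℚ K) ^ _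
  exact ((IsCyclotomicExtension.zeta_spec p ℚ K).autToPow_spec ℚ σ).symm

open Spec in
/-- The conjugate `σ⁻¹ δ`. -/
theorem inv_smul_delta (σ : K ≃ₐ[ℚ] K) :
    haveI : NeZero p := ⟨hp.out.ne_zero⟩
    σ⁻¹ • delta p K = ∏ b ∈ Finset.Icc 1 (p - 1),
      ((zetaInt p K ^ (((JacobiSumStickelberger.cycloGalEquiv p K σ)⁻¹ : (ZMod p)ˣ) :
        ZMod p).val) ^ b - 1) ^ (b ^ (p - 3)) := by
  have : NeZero p := ⟨hp.out.ne_zero⟩
  have h := smul_zetaInt p K σ⁻¹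
  rw [map_inv] at h
  rw [delta, ← MulSemiringAction.toRingHom_apply, map_prod]
  refine Finset.prod_congr rfl fun b _ => ?_
  rw [map_pow, map_sub, map_pow, map_one, MulSemiringAction.toRingHom_apply, h]

end Setup

end Fermat.Agent.S14.Thaine102

namespace Fermat.Agent.S14.Thaine102

open Spec

section Main

theorem ringAut_eq_toRingHom (K : Type) [Field K] [NumberField K] (σ : K ≃ₐ[ℚ] K) :
    ((ringAut K σ : 𝓞 K ≃+* 𝓞 K) : 𝓞 K →+* 𝓞 K) =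
      MulSemiringAction.toRingHom (K ≃ₐ[ℚ] K) (𝓞 K) σ := by
  ext x
  exact algebraMap_galRestrict_apply ℤ σ x

theorem coe_mapNonZero_ringAut (K : Type) [Field K] [NumberField K] (σ : K ≃ₐ[ℚ] K)
    (Q : (Ideal (𝓞 K))⁰) :
    ((Ideal.mapNonZero (ringAut K σ) Q : (Ideal (𝓞 K))⁰) : Ideal (𝓞 K)) =
      σ • (Q : Ideal (𝓞 K)) := by
  rw [Ideal.coe_mapNonZero, ringAut_eq_toRingHom, Ideal.pointwise_smul_def]

/-- **Thaine's relation** in the shape of `Spec.ThaineStatement`. -/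
theorem thaine : Spec.ThaineStatement := by
  intro p hp h5 K _ _ _ Q hgood
  obtain ⟨hQprime, hqprime, hqp, hδ⟩ := hgood
  have : NeZero p := ⟨hp.out.ne_zero⟩
  obtain ⟨q, hQq⟩ : ∃ q, Ideal.absNorm (Q : Ideal (𝓞 K)) = q := ⟨_, rfl⟩
  rw [hQq] at hqprime hqp
  have : Fact q.Prime := ⟨hqprime⟩
  have hpq : p ≠ q := fun h => hqp h.symm
  have hq1 : (q : ZMod p) = 1 := natCast_zmod_eq_one p q K hpq Q hQq
  have hpdvd : p ∣ q - 1 := by
    have h1 : ((q - 1 : ℕ) : ZMod p) = 0 := by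
      rw [Nat.cast_sub hqprime.one_lt.le, hq1, Nat.cast_one, sub_self]
    exact (ZMod.natCast_eq_zero_iff _ _).mp h1
  classical
  let T : Finset (Ideal (𝓞 K)) :=
    Finset.univ.image (fun σ : K ≃ₐ[ℚ] K => σ • (Q : Ideal (𝓞 K)))
  have hT : ∀ 𝔮 : Ideal (𝓞 K), 𝔮 ∈ T ↔ 𝔮.IsPrime ∧ (q : 𝓞 K) ∈ 𝔮 := by
    intro 𝔮
    rw [Finset.mem_image]
    simp only [Finset.mem_univ, true_and]
    exact exists_smul_eq_iff p q K Q hQq 𝔮
  have hζp : IsPrimitiveRoot (zetaInt p K) p :=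
    (IsCyclotomicExtension.zeta_spec p ℚ K).toInteger_isPrimitiveRoot
  obtain ⟨g₀, J, r, a, hg₀, hJ, ha, hspan, hloc⟩ :=
    thaine_core p q K (CyclotomicField q K) hpq hq1 hζp (fun b => b ^ (p - 3)) T hT
  have hdel : del p K (zetaInt p K) (fun b => b ^ (p - 3)) = delta p K := rfl
  rw [hdel] at hloc
  -- the residue field
  have hQ0 : (Q : Ideal (𝓞 K)) ≠ ⊥ := nonZeroDivisors.coe_ne_zero Q
  have hQmax : (Q : Ideal (𝓞 K)).IsMaximal := hQprime.isMaximal hQ0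
  letI : Field (𝓞 K ⧸ (Q : Ideal (𝓞 K))) := Ideal.Quotient.field _
  have hfinite : Finite (𝓞 K ⧸ (Q : Ideal (𝓞 K))) := Ideal.finiteQuotientOfFreeOfNeBot _ hQ0
  letI : Fintype (𝓞 K ⧸ (Q : Ideal (𝓞 K))) := Fintype.ofFinite _
  have hk : Fintype.card (𝓞 K ⧸ (Q : Ideal (𝓞 K))) = q := by
    rw [← Nat.card_eq_fintype_card, ← hQq, Ideal.absNorm_apply, Submodule.cardQuot_apply]
  -- the indices
  set ρ : (K ≃ₐ[ℚ] K) → ℕ := fun σ => r (σ • (Q : Ideal (𝓞 K))) with hρ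
  have hrelQ : ∀ σ : K ≃ₐ[ℚ] K, Ideal.Quotient.mk (Q : Ideal (𝓞 K)) (σ⁻¹ • delta p K) *
      (g₀ : 𝓞 K ⧸ (Q : Ideal (𝓞 K))) ^ (ρ σ) = 1 := by
    intro σ
    have hmemT : σ • (Q : Ideal (𝓞 K)) ∈ T := Finset.mem_image_of_mem _ (Finset.mem_univ σ)
    have h1 := hloc _ hmemT
    rw [Ideal.mem_pointwise_smul_iff_inv_smul_mem, smul_sub, smul_mul', smul_pow',
      smul_natCast_eq, smul_one] at h1
    have h2 := (Ideal.Quotient.eq_zero_iff_mem).mpr h1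
    rw [map_sub, map_mul, map_pow, map_natCast, map_one, sub_eq_zero] at h2
    exact h2
  have hindex : ∀ σ : K ≃ₐ[ℚ] K,
      (ρ σ : ZMod p) = ((galExp p K σ ^ (p - 3) : ℕ) : ZMod p) * (ρ 1 : ZMod p) := by
    intro σ
    refine field_side p q hk hpdvd (Ideal.Quotient.mk (Q : Ideal (𝓞 K))) (zetaInt p K)
      hζp.pow_eq_one g₀ hg₀ (JacobiSumStickelberger.cycloGalEquiv p K σ) (ρ σ) (ρ 1) ?_ ?_
    · have := hrelQ 1
      rwa [inv_one, one_smul] at this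
    · have := hrelQ σ
      rwa [inv_smul_delta] at this
  have hρ₁ : (ρ 1 : ZMod p) ≠ 0 := by
    intro h0
    obtain ⟨t, ht⟩ := (ZMod.natCast_eq_zero_iff _ _).mp h0
    apply hδ
    have hg0 : (g₀ : 𝓞 K ⧸ (Q : Ideal (𝓞 K))) ≠ 0 := natCast_ne_zero_of_orderOf hk g₀ hg₀
    obtain ⟨x, hx⟩ := Ideal.Quotient.mk_surjective
      (((g₀ : 𝓞 K ⧸ (Q : Ideal (𝓞 K))) ^ t)⁻¹)
    refine ⟨x, ?_⟩
    rw [← Ideal.Quotient.eq_zero_iff_mem, map_sub, map_pow, hx, sub_eq_zero]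
    have h1 := hrelQ 1
    rw [inv_one, one_smul, ht, pow_mul'] at h1
    rw [inv_pow]
    exact (eq_inv_of_mul_eq_one_left h1).symm
  -- the class group relation
  have hinj := smul_injective p q K hpq (Q : Ideal (𝓞 K)) hQq
  have hprodT : ∏ 𝔮 ∈ T, 𝔮 ^ r 𝔮 =
      ∏ σ : K ≃ₐ[ℚ] K, (σ • (Q : Ideal (𝓞 K))) ^ ρ σ :=
    Finset.prod_image (fun σ _ σ' _ h => hinj h)
  have hcoe : ∀ σ : K ≃ₐ[ℚ] K, clAct K σ (ClassGroup.mk0 Q) =
      ClassGroup.mk0 (Ideal.mapNonZero (ringAut K σ) Q) := fun σ =>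
    ClassGroup.mulEquiv_mk0 (ringAut K σ) Q
  have ha0 : Ideal.span {a} ∈ (Ideal (𝓞 K))⁰ := by
    rw [mem_nonZeroDivisors_iff_ne_zero, Ne, Ideal.zero_eq_bot, Ideal.span_singleton_eq_bot]
    exact ha
  have hJ0 : J ∈ (Ideal (𝓞 K))⁰ := mem_nonZeroDivisors_iff_ne_zero.mpr hJ
  have hsub : (⟨Ideal.span {a}, ha0⟩ : (Ideal (𝓞 K))⁰) =
      (⟨J, hJ0⟩ : (Ideal (𝓞 K))⁰) ^ (q - 1) *
        ∏ σ : K ≃ₐ[ℚ] K, (Ideal.mapNonZero (ringAut K σ) Q) ^ ρ σ := by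
    apply Subtype.ext
    rw [Submonoid.coe_mul, SubmonoidClass.coe_pow, Submonoid.coe_finsetProd]
    simp only [SubmonoidClass.coe_pow, coe_mapNonZero_ringAut]
    rw [← hprodT]
    exact hspan
  have hrel : (ClassGroup.mk0 ⟨J, hJ0⟩) ^ (q - 1) *
      ∏ σ : K ≃ₐ[ℚ] K, (clAct K σ (ClassGroup.mk0 Q)) ^ ρ σ = 1 := by
    have h1 : ClassGroup.mk0 (⟨Ideal.span {a}, ha0⟩ : (Ideal (𝓞 K))⁰) = 1 :=
      (ClassGroup.mk0_eq_one_iff ha0).mpr ⟨⟨a, rfl⟩⟩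
    rw [hsub, map_mul, map_pow, map_prod] at h1
    rw [← h1]
    congr 1
    refine Finset.prod_congr rfl fun σ _ => ?_
    rw [map_pow, hcoe]
  exact exists_pow_eq_of_relation Finset.univ p
    (fun σ : K ≃ₐ[ℚ] K => clAct K σ (ClassGroup.mk0 Q))
    (fun σ => galExp p K σ ^ (p - 3)) ρ (ρ 1) (q - 1) hpdvd (ClassGroup.mk0 ⟨J, hJ0⟩) hrel
    (fun σ _ => by rw [hindex σ, mul_comm]) hρ₁

end Main

end Fermat.Agent.S14.Thaine102
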