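import Fermat.Agent.S14.Thaine102.Fields

/-!
# S14 / Thaine block — ramification in `L = K(ζ_q)` over `K = ℚ(ζ_p)` (helper102)
-/

set_option autoImplicit false

open NumberField Polynomial

namespace Fermat.Agent.S14.Thaine102

section Ramification

variable (p q : ℕ) [hp : Fact p.Prime] [hq : Fact q.Prime]
variable (K L : Type) [Field K] [NumberField K] [Field L] [NumberField L] [Algebra K L]
variable [IsCyclotomicExtension {p} ℚ K] [IsCyclotomicExtension {q} K L]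

/-- Primes of `L` not above `q` are unramified over `K`. -/
theorem ramificationIdx_eq_one (hpq : p ≠ q) (P : Ideal (𝓞 L)) [hP : P.IsPrime] (hP0 : P ≠ ⊥)
    (hPq : (q : 𝓞 L) ∉ P) : P.ramificationIdx (𝓞 K) = 1 := by
  have : NeZero p := ⟨hp.out.ne_zero⟩
  have : NeZero (p * q) := ⟨mul_ne_zero hp.out.ne_zero hq.out.ne_zero⟩
  have := isCyclotomicExtension_mul p q K L hpq
  have : NeZero P := ⟨hP0⟩
  set ℓ : ℕ := Ideal.absNorm (Ideal.under ℤ P) with hℓ
  have hℓprime : ℓ.Prime := Nat.absNorm_under_prime P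
  have : Fact ℓ.Prime := ⟨hℓprime⟩
  have hPℓ : P.LiesOver (Ideal.span {(ℓ : ℤ)}) := Int.liesOver_span_absNorm P
  have hℓq : ℓ ≠ q := by
    intro h
    apply hPq
    have := Int.absNorm_under_mem P
    rwa [← hℓ, h] at this
  set 𝔭 : Ideal (𝓞 K) := Ideal.under (𝓞 K) P with h𝔭
  have h𝔭P : P.LiesOver 𝔭 := ⟨rfl⟩
  have h𝔭prime : 𝔭.IsPrime := Ideal.IsPrime.under (𝓞 K) P
  have h𝔭ℓ : 𝔭.LiesOver (Ideal.span {(ℓ : ℤ)}) := Ideal.LiesOver.tower_bot P 𝔭 _
  have htower := Ideal.ramificationIdx_tower (R := ℤ) 𝔭 P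
  by_cases hℓp : ℓ = p
  · have e1 : P.ramificationIdx ℤ = p - 1 := by
      have := IsCyclotomicExtension.Rat.ramificationIdx_eq (p * q) (m := q) (p := ℓ) (k := 0) L P
        (by rw [hℓp]; ring) (by rw [hℓp]; exact fun h => hpq ((Nat.prime_dvd_prime_iff_eq hp.out hq.out).mp h))
      rw [this, hℓp]; simp
    have e2 : 𝔭.ramificationIdx ℤ = p - 1 := by
      subst hℓp
      exact IsCyclotomicExtension.Rat.ramificationIdx_eq_of_prime ℓ K 𝔭
    rw [e1, e2] at htower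
    have hp1 : 0 < p - 1 := Nat.sub_pos_of_lt hp.out.one_lt
    exact (Nat.eq_of_mul_eq_mul_left hp1 (by rw [mul_one]; exact htower)).symm
  · have e1 : P.ramificationIdx ℤ = 1 := by
      refine IsCyclotomicExtension.Rat.ramificationIdx_eq_of_not_dvd ℓ L P (m := p * q) ?_
      intro h
      rcases (Nat.Prime.dvd_mul hℓprime).mp h with h | h
      · exact hℓp ((Nat.prime_dvd_prime_iff_eq hℓprime hp.out).mp h)
      · exact hℓq ((Nat.prime_dvd_prime_iff_eq hℓprime hq.out).mp h)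
    rw [e1] at htower
    exact Nat.eq_one_of_mul_eq_one_left htower.symm

omit hp [NumberField K] [IsCyclotomicExtension {p} ℚ K] [IsCyclotomicExtension {q} K L]
  [Algebra K L] in
/-- A prime of `L` containing `q` lies over `q`. -/
theorem liesOver_of_mem (P : Ideal (𝓞 L)) [hP : P.IsPrime]
    (hPq : (q : 𝓞 L) ∈ P) : P.LiesOver (Ideal.span {(q : ℤ)}) := by
  have hP0 : P ≠ ⊥ := by
    rintro rfl
    rw [Ideal.mem_bot] at hPq
    exact hq.out.ne_zero (by exact_mod_cast hPq)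
  have : NeZero P := ⟨hP0⟩
  have hℓprime : (Ideal.absNorm (Ideal.under ℤ P)).Prime := Nat.absNorm_under_prime P
  have hdvd : (Ideal.absNorm (Ideal.under ℤ P) : ℤ) ∣ (q : ℤ) := by
    rw [← Int.cast_mem_ideal_iff (I := P)]
    exact_mod_cast hPq
  have heq : Ideal.absNorm (Ideal.under ℤ P) = q :=
    (Nat.prime_dvd_prime_iff_eq hℓprime hq.out).mp (by exact_mod_cast hdvd)
  have := Int.liesOver_span_absNorm P
  rwa [heq] at this

include K in
/-- Primes of `L` above `q` have ramification index `q - 1` over `ℤ`. -/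
theorem ramificationIdx_int_of_mem (hpq : p ≠ q)
    (P : Ideal (𝓞 L)) [hP : P.IsPrime] (hPq : (q : 𝓞 L) ∈ P) :
    P.ramificationIdx ℤ = q - 1 := by
  have : NeZero p := ⟨hp.out.ne_zero⟩
  have : NeZero (p * q) := ⟨mul_ne_zero hp.out.ne_zero hq.out.ne_zero⟩
  have := isCyclotomicExtension_mul p q K L hpq
  have hPℓ : P.LiesOver (Ideal.span {(q : ℤ)}) := liesOver_of_mem q L P hPq
  have hqp : ¬ q ∣ p := fun h => hpq ((Nat.prime_dvd_prime_iff_eq hq.out hp.out).mp h).symm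
  have := IsCyclotomicExtension.Rat.ramificationIdx_eq (p * q) (m := p) (p := q) (k := 0) L P
    (by ring) hqp
  rw [this]; simp

/-- Primes of `L` above `q` are totally ramified over `K`. -/
theorem ramificationIdx_inertiaDeg_of_mem (hpq : p ≠ q) (hq1 : (q : ZMod p) = 1)
    (P : Ideal (𝓞 L)) [hP : P.IsPrime] (hPq : (q : 𝓞 L) ∈ P) :
    P.ramificationIdx (𝓞 K) = q - 1 ∧ P.inertiaDeg (𝓞 K) = 1 := by
  have : NeZero p := ⟨hp.out.ne_zero⟩
  have : NeZero (p * q) := ⟨mul_ne_zero hp.out.ne_zero hq.out.ne_zero⟩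
  have := isCyclotomicExtension_mul p q K L hpq
  have hPℓ : P.LiesOver (Ideal.span {(q : ℤ)}) := liesOver_of_mem q L P hPq
  set 𝔭 : Ideal (𝓞 K) := Ideal.under (𝓞 K) P with h𝔭
  have h𝔭P : P.LiesOver 𝔭 := ⟨rfl⟩
  have h𝔭prime : 𝔭.IsPrime := Ideal.IsPrime.under (𝓞 K) P
  have h𝔭ℓ : 𝔭.LiesOver (Ideal.span {(q : ℤ)}) := Ideal.LiesOver.tower_bot P 𝔭 _
  have hqp : ¬ q ∣ p := fun h => hpq ((Nat.prime_dvd_prime_iff_eq hq.out hp.out).mp h).symm
  have hord : orderOf (q : ZMod p) = 1 := by rw [hq1, orderOf_one]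
  constructor
  · have htower := Ideal.ramificationIdx_tower (R := ℤ) 𝔭 P
    have e1 : P.ramificationIdx ℤ = q - 1 := by
      have := IsCyclotomicExtension.Rat.ramificationIdx_eq (p * q) (m := p) (p := q) (k := 0) L P
        (by ring) hqp
      rw [this]; simp
    have e2 : 𝔭.ramificationIdx ℤ = 1 :=
      IsCyclotomicExtension.Rat.ramificationIdx_eq_of_not_dvd q K 𝔭 (m := p) hqp
    rw [e1, e2, one_mul] at htower
    exact htower.symm
  · have htower := Ideal.inertiaDeg_tower (R := ℤ) 𝔭 P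
    have e1 : P.inertiaDeg ℤ = 1 := by
      have := IsCyclotomicExtension.Rat.inertiaDeg_eq (p * q) (m := p) (p := q) (k := 0) L P
        (by ring) hqp
      rw [this, hord]
    have e2 : 𝔭.inertiaDeg ℤ = 1 := by
      have := IsCyclotomicExtension.Rat.inertiaDeg_eq_of_not_dvd q K 𝔭 (m := p) hqp
      rw [this, hord]
    rw [e1, e2, one_mul] at htower
    exact htower.symm

open scoped Pointwise in
/-- Primes of `L` above `q` are fixed by `Gal(L/K)`. -/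
theorem smul_eq_of_mem (hpq : p ≠ q) (hq1 : (q : ZMod p) = 1)
    (P : Ideal (𝓞 L)) [hP : P.IsPrime] (hPq : (q : 𝓞 L) ∈ P) (g : L ≃ₐ[K] L) :
    g • P = P := by
  have : IsGalois K L := IsCyclotomicExtension.isGalois {q} K L
  obtain ⟨he, hf⟩ := ramificationIdx_inertiaDeg_of_mem p q K L hpq hq1 P hPq
  set 𝔭 : Ideal (𝓞 K) := Ideal.under (𝓞 K) P with h𝔭
  have h𝔭P : P.LiesOver 𝔭 := ⟨rfl⟩
  have h𝔭prime : 𝔭.IsPrime := Ideal.IsPrime.under (𝓞 K) P
  have hcard := Ideal.ncard_primesOver_mul_ramificationIdxIn_mul_inertiaDegIn 𝔭 (𝓞 L)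
    (L ≃ₐ[K] L)
  rw [Ideal.ramificationIdxIn_eq_ramificationIdx 𝔭 P (L ≃ₐ[K] L),
    Ideal.inertiaDegIn_eq_inertiaDeg 𝔭 P (L ≃ₐ[K] L), he, hf, mul_one,
    IsGalois.card_aut_eq_finrank, finrank_eq p q K L hpq] at hcard
  have hq1' : 0 < q - 1 := Nat.sub_pos_of_lt hq.out.one_lt
  have hone : (𝔭.primesOver (𝓞 L)).ncard = 1 :=
    Nat.eq_of_mul_eq_mul_right hq1' (by rw [one_mul]; exact hcard)
  obtain ⟨P₀, hP₀⟩ := Set.ncard_eq_one.mp hone
  have hmem1 : P ∈ 𝔭.primesOver (𝓞 L) := ⟨hP, h𝔭P⟩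
  have : SMulCommClass (L ≃ₐ[K] L) (𝓞 K) (𝓞 L) := IsGaloisGroup.commutes
  have hmem2 : g • P ∈ 𝔭.primesOver (𝓞 L) := ⟨inferInstance, inferInstance⟩
  rw [hP₀, Set.mem_singleton_iff] at hmem1 hmem2
  rw [hmem2, hmem1]

/-- Primes of `L` above `q` have relative norm the prime below. -/
theorem relNorm_eq_of_mem (hpq : p ≠ q) (hq1 : (q : ZMod p) = 1)
    (P : Ideal (𝓞 L)) [hP : P.IsPrime] (hPq : (q : 𝓞 L) ∈ P) :
    Ideal.relNorm (𝓞 K) P = Ideal.under (𝓞 K) P := by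
  obtain ⟨he, hf⟩ := ramificationIdx_inertiaDeg_of_mem p q K L hpq hq1 P hPq
  have hP0 : P ≠ ⊥ := by
    rintro rfl
    rw [Ideal.mem_bot] at hPq
    exact hq.out.ne_zero (by exact_mod_cast hPq)
  have hPmax : P.IsMaximal := Ring.DimensionLEOne.maximalOfPrime hP0 hP
  have h𝔭P : P.LiesOver (Ideal.under (𝓞 K) P) := ⟨rfl⟩
  have h𝔭max : (Ideal.under (𝓞 K) P).IsMaximal := Ideal.IsMaximal.under (𝓞 K) P
  rw [Ideal.relNorm_eq_pow_of_isMaximal P (Ideal.under (𝓞 K) P), hf, pow_one]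

open scoped Pointwise in
/-- `Gal(L/K)` acts trivially modulo a prime of `L` above `q` (the inertia group is everything). -/
theorem smul_sub_mem_of_mem (hpq : p ≠ q) (hq1 : (q : ZMod p) = 1)
    (P : Ideal (𝓞 L)) [hP : P.IsPrime] (hPq : (q : 𝓞 L) ∈ P) (g : L ≃ₐ[K] L) (x : 𝓞 L) :
    g • x - x ∈ P := by
  have : IsGalois K L := IsCyclotomicExtension.isGalois {q} K L
  obtain ⟨he, hf⟩ := ramificationIdx_inertiaDeg_of_mem p q K L hpq hq1 P hPq
  set 𝔭 : Ideal (𝓞 K) := Ideal.under (𝓞 K) P with h𝔭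
  have h𝔭P : P.LiesOver 𝔭 := ⟨rfl⟩
  have h𝔭prime : 𝔭.IsPrime := Ideal.IsPrime.under (𝓞 K) P
  have hcard := Ideal.card_inertia_eq_ramificationIdxIn (G := L ≃ₐ[K] L) 𝔭 P
  rw [Ideal.ramificationIdxIn_eq_ramificationIdx 𝔭 P (L ≃ₐ[K] L), he,
    ← finrank_eq p q K L hpq, ← IsGalois.card_aut_eq_finrank] at hcard
  have htop : P.inertia (L ≃ₐ[K] L) = ⊤ := Subgroup.eq_top_of_card_eq _ hcard
  have hg : g ∈ P.inertia (L ≃ₐ[K] L) := by rw [htop]; exact Subgroup.mem_top g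
  exact hg x

end Ramification

end Fermat.Agent.S14.Thaine102
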